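/-
P-GENUS / GEN-14 (helper61), part 1: generic analytic lemmas on the upper half plane.
-/
import Mathlib

set_option autoImplicit false

noncomputable section

open UpperHalfPlane Filter Topology
open scoped MatrixGroups Manifold

namespace Fermat.Agent.H61

/-- The complexification of a holomorphic function on `ℍ` is analytic at every point of `ℍ`. -/
lemma analyticAt_comp_ofComplex {f : ℍ → ℂ} (hf : MDiff f) (z : ℍ) :
    AnalyticAt ℂ (f ∘ ofComplex) (z : ℂ) := by
  rw [mdifferentiable_iff] at hf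
  exact hf.analyticAt (isOpen_upperHalfPlaneSet.mem_nhds z.im_pos)

lemma analyticOnNhd_comp_ofComplex {f : ℍ → ℂ} (hf : MDiff f) :
    AnalyticOnNhd ℂ (f ∘ ofComplex) {z : ℂ | 0 < z.im} := by
  intro z hz
  exact analyticAt_comp_ofComplex hf ⟨z, hz⟩

/-- Identity theorem on `ℍ`. -/
lemma eq_of_eventuallyEq_nhdsNE {f₁ f₂ : ℍ → ℂ} (h₁ : MDiff f₁) (h₂ : MDiff f₂) (z₀ : ℍ)
    (h : (f₁ ∘ ofComplex) =ᶠ[𝓝[≠] (z₀ : ℂ)] (f₂ ∘ ofComplex)) : f₁ = f₂ := by
  have hpre : IsPreconnected {z : ℂ | 0 < z.im} :=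
    (convex_halfSpace_im_gt 0).isPreconnected
  have key := (analyticOnNhd_comp_ofComplex h₁).eqOn_of_preconnected_of_frequently_eq
    (analyticOnNhd_comp_ofComplex h₂) hpre (show (z₀ : ℂ) ∈ {z : ℂ | 0 < z.im} from z₀.im_pos)
    h.frequently
  funext z
  have := key (show (z : ℂ) ∈ {z : ℂ | 0 < z.im} from z.im_pos)
  simpa [Function.comp_apply, ofComplex_apply] using this

end Fermat.Agent.H61

end
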