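/-
P-GENUS / GEN-14 (helper61), part 2: the multiplier lemma.
-/
import Mathlib
import Fermat.Agent.H61.GenAn1

set_option autoImplicit false

noncomputable section

open UpperHalfPlane Filter Topology
open scoped MatrixGroups Manifold

namespace Fermat.Agent.H61

/-- Abstract multiplier lemma: if `F` has order `n` at `z₀`, `φ` is analytic at `z₀`, fixes `z₀`,
has nonzero derivative there and `F ∘ φ = F` near `z₀`, then `(φ' z₀) ^ n = 1`. -/
lemma deriv_zpow_eq_one_of_comp_eq {F φ : ℂ → ℂ} {z₀ : ℂ} {n : ℤ}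
    (hF : MeromorphicAt F z₀) (hn : meromorphicOrderAt F z₀ = n)
    (hφ : AnalyticAt ℂ φ z₀) (hφ0 : φ z₀ = z₀) (hφ' : deriv φ z₀ ≠ 0)
    (hinv : ∀ᶠ z in 𝓝[≠] z₀, F (φ z) = F z) :
    (deriv φ z₀) ^ n = 1 := by
  obtain ⟨u, hu, hu0, hFu⟩ := (meromorphicOrderAt_eq_int_iff hF).mp hn
  -- `φ` is not locally constant
  have hnc : ¬ EventuallyConst φ (𝓝 z₀) := by
    have h1 : analyticOrderAt (fun z => φ z - φ z₀) z₀ = 1 :=
      hφ.analyticOrderAt_sub_eq_one_of_deriv_ne_zero hφ'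
    rw [eventuallyConst_iff_analyticOrderAt_sub_eq_top, h1]
    simp
  have hmap : Tendsto φ (𝓝[≠] z₀) (𝓝[≠] z₀) := by
    have := hφ.map_nhdsNE hnc
    rw [hφ0] at this
    exact this
  have hFφ : ∀ᶠ z in 𝓝[≠] z₀, F (φ z) = (φ z - z₀) ^ n • u (φ z) := hmap.eventually hFu
  have hne : ∀ᶠ z in 𝓝[≠] z₀, z ≠ z₀ := eventually_mem_nhdsWithin
  have hslope : ∀ z, φ z - z₀ = (z - z₀) * dslope φ z₀ z := by
    intro z
    have := sub_smul_dslope φ z₀ z
    rw [hφ0] at this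
    rw [← this, smul_eq_mul]
  have hev : ∀ᶠ z in 𝓝[≠] z₀, (dslope φ z₀ z) ^ n * u (φ z) = u z := by
    filter_upwards [hFφ, hFu, hinv, hne] with z h1 h2 h3 h4
    rw [h1, h2, hslope z, mul_zpow, smul_eq_mul, smul_eq_mul, mul_assoc] at h3
    have hz : (z - z₀) ^ n ≠ 0 := zpow_ne_zero _ (sub_ne_zero.mpr h4)
    exact mul_left_cancel₀ hz h3
  have hds : ContinuousAt (dslope φ z₀) z₀ := continuousAt_dslope_same.mpr hφ.differentiableAt
  have hds0 : dslope φ z₀ z₀ ≠ 0 := by rw [dslope_same]; exact hφ'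
  have hc1 : ContinuousAt (fun z => (dslope φ z₀ z) ^ n * u (φ z)) z₀ := by
    refine ContinuousAt.mul (hds.zpow₀ n (Or.inl hds0)) ?_
    have : ContinuousAt u (φ z₀) := by rw [hφ0]; exact hu.continuousAt
    exact ContinuousAt.comp (f := φ) (g := u) this hφ.continuousAt
  have hc2 : ContinuousAt u z₀ := hu.continuousAt
  have hlim := tendsto_nhds_unique_of_eventuallyEq
    (hc1.tendsto.mono_left nhdsWithin_le_nhds) (hc2.tendsto.mono_left nhdsWithin_le_nhds) hev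
  simp only [dslope_same, hφ0] at hlim
  exact mul_right_cancel₀ hu0 (by rw [hlim, one_mul])

/-- Multiplier lemma on the upper half plane: a holomorphic function on `ℍ` of order `n` at a
fixed point `z₀` of `γ` which is `γ`-invariant satisfies `(denom γ z₀ ^ 2) ^ n = 1`. -/
lemma denom_sq_pow_eq_one {H : ℍ → ℂ} (hH : MDiff H) (γ : SL(2, ℤ)) (z₀ : ℍ)
    (hγ : γ • z₀ = z₀) (hinv : ∀ z, H (γ • z) = H z) (n : ℕ)
    (hn : meromorphicOrderAt (H ∘ ofComplex) (z₀ : ℂ) = n) :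
    (denom γ z₀ ^ 2) ^ n = 1 := by
  have hdet : 0 < ((γ : GL (Fin 2) ℝ)).det.val := by
    simp
  set φ : ℂ → ℂ := fun z => ((γ : GL (Fin 2) ℝ) • ofComplex z : ℍ) with hφdef
  have hφ : AnalyticAt ℂ φ z₀ := z₀.analyticAt_smul hdet
  have hφ0 : φ z₀ = z₀ := by
    simp only [hφdef, ofComplex_apply]
    exact congrArg _ hγ
  have hdet1 : ((γ : GL (Fin 2) ℝ)).val.det = 1 :=
    (Matrix.SpecialLinearGroup.map (Int.castRingHom ℝ) γ).det_coe
  have hderiv : deriv φ z₀ = 1 / denom γ z₀ ^ 2 := by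
    rw [hφdef, z₀.deriv_smul hdet, hdet1]
    simp
  have hd : denom γ z₀ ≠ 0 := denom_ne_zero _ z₀
  have hφ' : deriv φ z₀ ≠ 0 := by
    rw [hderiv]; exact one_div_ne_zero (pow_ne_zero _ hd)
  have hFφ : ∀ᶠ z in 𝓝[≠] (z₀ : ℂ), (H ∘ ofComplex) (φ z) = (H ∘ ofComplex) z := by
    refine Eventually.of_forall fun z => ?_
    simp only [hφdef, Function.comp_apply, ofComplex_apply]
    exact hinv _
  have key := deriv_zpow_eq_one_of_comp_eq (n := (n : ℤ))
    (analyticAt_comp_ofComplex hH z₀).meromorphicAt (by exact_mod_cast hn) hφ hφ0 hφ' hFφ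
  rw [hderiv, zpow_natCast, one_div, inv_pow] at key
  exact inv_eq_one.mp key

end Fermat.Agent.H61

end
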