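/-
P-GENUS / GEN-14 (helper61), part 3: germ homomorphisms attached to a point of `ℍ`.
-/
import Mathlib
import Fermat.Agent.H23.BlueprintAn
import Fermat.Agent.H61.GenAn2

set_option autoImplicit false

noncomputable section

open UpperHalfPlane Filter Topology
open scoped MatrixGroups Manifold

namespace Fermat.Agent.H61

open Fermat.Agent.H23

/-- Precomposition with the action of `γ⁻¹`, as a ring endomorphism of `ℍ → ℂ`. -/
def pullHom (γ : SL(2, ℤ)) : (ℍ → ℂ) →+* (ℍ → ℂ) where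
  toFun f := fun z => f (γ⁻¹ • z)
  map_one' := rfl
  map_mul' _ _ := rfl
  map_zero' := rfl
  map_add' _ _ := rfl

@[simp] lemma pullHom_apply (γ : SL(2, ℤ)) (f : ℍ → ℂ) (z : ℍ) :
    pullHom γ f z = f (γ⁻¹ • z) := rfl

lemma pullHom_injective (γ : SL(2, ℤ)) : Function.Injective (pullHom γ) := by
  intro f₁ f₂ h
  funext z
  have := congrFun h (γ • z)
  simpa using this

lemma mdiff_smul_SL (γ : SL(2, ℤ)) : MDiff (fun z : ℍ => γ • z) := by
  have hdet : 0 < ((γ : GL (Fin 2) ℝ)).det.val := by simp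
  exact mdifferentiable_smul hdet

lemma mdiff_pullHom (γ : SL(2, ℤ)) {f : ℍ → ℂ} (hf : MDiff f) : MDiff (pullHom γ f) :=
  hf.comp (mdiff_smul_SL γ⁻¹)

section germ

variable {z₀ : ℍ} (G : MerGermField (z₀ : ℂ))

lemma germ_zero : G.germ (fun _ => (0 : ℂ)) = 0 := by
  have h0 : MeromorphicAt (fun _ : ℂ => (0 : ℂ)) (z₀ : ℂ) := MeromorphicAt.const 0 _
  have h := G.germ_add _ _ h0 h0
  have e : ((fun _ : ℂ => (0 : ℂ)) + fun _ : ℂ => (0 : ℂ)) = fun _ => (0 : ℂ) := by
    funext z; simp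
  rw [e] at h
  exact left_eq_add.mp h

/-- The germ homomorphism attached to a ring of holomorphic functions on `ℍ`. -/
def germHom {R : Type*} [CommRing R] (Θ' : R →+* (ℍ → ℂ)) (hmd : ∀ r, MDiff (Θ' r)) :
    R →+* G.M where
  toFun r := G.germ (Θ' r ∘ ofComplex)
  map_one' := by
    have : (Θ' 1 ∘ ofComplex) = fun _ => (1 : ℂ) := by rw [map_one]; rfl
    rw [this]; exact G.germ_one
  map_mul' r s := by
    have : (Θ' (r * s) ∘ ofComplex) = (Θ' r ∘ ofComplex) * (Θ' s ∘ ofComplex) := by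
      rw [map_mul]; rfl
    rw [this]
    exact G.germ_mul _ _ (analyticAt_comp_ofComplex (hmd r) z₀).meromorphicAt
      (analyticAt_comp_ofComplex (hmd s) z₀).meromorphicAt
  map_zero' := by
    have : (Θ' 0 ∘ ofComplex) = fun _ => (0 : ℂ) := by rw [map_zero]; rfl
    rw [this]; exact germ_zero G
  map_add' r s := by
    have : (Θ' (r + s) ∘ ofComplex) = (Θ' r ∘ ofComplex) + (Θ' s ∘ ofComplex) := by
      rw [map_add]; rfl
    rw [this]
    exact G.germ_add _ _ (analyticAt_comp_ofComplex (hmd r) z₀).meromorphicAt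
      (analyticAt_comp_ofComplex (hmd s) z₀).meromorphicAt

lemma germHom_apply {R : Type*} [CommRing R] (Θ' : R →+* (ℍ → ℂ)) (hmd : ∀ r, MDiff (Θ' r))
    (r : R) : germHom G Θ' hmd r = G.germ (Θ' r ∘ ofComplex) := rfl

lemma germHom_eq_iff {R : Type*} [CommRing R] (Θ' : R →+* (ℍ → ℂ)) (hmd : ∀ r, MDiff (Θ' r))
    (Θ'' : R →+* (ℍ → ℂ)) (hmd' : ∀ r, MDiff (Θ'' r)) (r s : R) :
    germHom G Θ' hmd r = germHom G Θ'' hmd' s ↔ Θ' r = Θ'' s := by
  constructor
  · intro h
    rw [germHom_apply, germHom_apply, G.germ_eq_iff _ _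
      (analyticAt_comp_ofComplex (hmd r) z₀).meromorphicAt
      (analyticAt_comp_ofComplex (hmd' s) z₀).meromorphicAt] at h
    exact eq_of_eventuallyEq_nhdsNE (hmd r) (hmd' s) z₀ h
  · intro h
    rw [germHom_apply, germHom_apply, h]

lemma germHom_injective {R : Type*} [CommRing R] (Θ' : R →+* (ℍ → ℂ)) (hmd : ∀ r, MDiff (Θ' r))
    (hinj : Function.Injective Θ') : Function.Injective (germHom G Θ' hmd) := by
  intro r s h
  exact hinj ((germHom_eq_iff G Θ' hmd Θ' hmd r s).mp h)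

lemma val_germHom {R : Type*} [CommRing R] (Θ' : R →+* (ℍ → ℂ)) (hmd : ∀ r, MDiff (Θ' r))
    (r : R) : G.val (germHom G Θ' hmd r) = meromorphicOrderAt (Θ' r ∘ ofComplex) (z₀ : ℂ) := by
  rw [germHom_apply]
  exact G.val_germ _ (analyticAt_comp_ofComplex (hmd r) z₀).meromorphicAt

/-- The order of a nonzero holomorphic function on `ℍ` at a point is a natural number. -/
lemma exists_nat_order {R : Type*} [CommRing R] (Θ' : R →+* (ℍ → ℂ))
    (hmd : ∀ r, MDiff (Θ' r)) (hinj : Function.Injective Θ') (z₀ : ℍ) (r : R) (hr : r ≠ 0) :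
    ∃ n : ℕ, meromorphicOrderAt (Θ' r ∘ ofComplex) (z₀ : ℂ) = n := by
  have han := analyticAt_comp_ofComplex (hmd r) z₀
  have hne : meromorphicOrderAt (Θ' r ∘ ofComplex) (z₀ : ℂ) ≠ ⊤ := by
    intro h
    rw [meromorphicOrderAt_eq_top_iff] at h
    have h0 : MDiff (fun _ : ℍ => (0 : ℂ)) := mdifferentiable_const
    have hz : Θ' r = fun _ => 0 := by
      refine eq_of_eventuallyEq_nhdsNE (hmd r) h0 z₀ ?_
      filter_upwards [h] with z hz
      simpa using hz
    apply hr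
    apply hinj
    rw [hz, map_zero]
    rfl
  rw [han.meromorphicOrderAt_eq] at hne ⊢
  cases h : analyticOrderAt (Θ' r ∘ ofComplex) (z₀ : ℂ) with
  | top => rw [h] at hne; simp at hne
  | coe n => exact ⟨n, by simp⟩

end germ

end Fermat.Agent.H61

end
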