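/-
P-GENUS / GEN-14 (helper61), part 4: the analytic datum at a point of `ℍ`.
-/
import Mathlib
import Fermat.Agent.H23.BlueprintAn
import Fermat.Agent.H61.GenAn3

set_option autoImplicit false

noncomputable section

open UpperHalfPlane Filter Topology
open scoped MatrixGroups Manifold

namespace Fermat.Agent.H61

open Fermat.Agent.H23

section main

variable {N : ℕ} [NeZero N]

local notation "Kbar" => AlgebraicClosure ℚ
set_option quotPrecheck false in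
local notation "FN" => ↥(ModularCurve.modularFunctionFieldBar N)

/-- `Γ₀(N)`-invariance of all `Θ r`, `r ∈ Rsub N`. -/
lemma theta_invariant (ι : Kbar →+* ℂ) (Θ : ↥(Rsub N) →+* (ℍ → ℂ))
    (hΘc : ∀ c : Kbar, Θ (algebraMap Kbar ↥(Rsub N) c) = fun _ => ι c)
    (hΘJ : ∀ (d : ℕ) (_ : NeZero d) (hd : d ∣ N) (h : jBarD N d hd ∈ Rsub N),
      Θ ⟨jBarD N d hd, h⟩ = fun z => jfun (scaleH d z))
    (hsep2 : ∀ (d : ℕ) (_ : NeZero d), d ∣ N → ∀ γ ∈ CongruenceSubgroup.Gamma0 N, ∀ z : ℍ,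
      jfun (scaleH d (γ • z)) = jfun (scaleH d z))
    (r : ↥(Rsub N)) (β : SL(2, ℤ)) (hβ : β ∈ CongruenceSubgroup.Gamma0 N) (z : ℍ) :
    Θ r (β • z) = Θ r z := by
  obtain ⟨x, hx⟩ := r
  refine Algebra.adjoin_induction
    (p := fun x hx => Θ (⟨x, hx⟩ : ↥(Rsub N)) (β • z) = Θ (⟨x, hx⟩ : ↥(Rsub N)) z)
    ?_ ?_ ?_ ?_ hx
  · rintro x ⟨d, hd0, hd, rfl⟩
    have h1 := hΘJ d hd0 hd (Algebra.subset_adjoin ⟨d, hd0, hd, rfl⟩)
    exact (congrFun h1 (β • z)).trans ((hsep2 d hd0 hd β hβ z).trans (congrFun h1 z).symm)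
  · intro c
    have h1 := hΘc c
    exact (congrFun h1 (β • z)).trans (congrFun h1 z).symm
  · intro x y hx hy ihx ihy
    have e := map_add Θ (⟨x, hx⟩ : ↥(Rsub N)) ⟨y, hy⟩
    have e1 := congrFun e (β • z)
    have e2 := congrFun e z
    simp only [Pi.add_apply] at e1 e2
    exact e1.trans ((congrArg₂ (· + ·) ihx ihy).trans e2.symm)
  · intro x y hx hy ihx ihy
    have e := map_mul Θ (⟨x, hx⟩ : ↥(Rsub N)) ⟨y, hy⟩
    have e1 := congrFun e (β • z)
    have e2 := congrFun e z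
    simp only [Pi.mul_apply] at e1 e2
    exact e1.trans ((congrArg₂ (· * ·) ihx ihy).trans e2.symm)

lemma jBar_eq_jBarD_one : jBar N = jBarD N 1 (one_dvd N) := by
  apply Subtype.ext
  show ModularCurve.coeffEmb (AlgebraicClosure ℚ) ModularCurve.jq
    = ModularCurve.coeffEmb (AlgebraicClosure ℚ) (ModularCurve.qExpand ℚ 1 ModularCurve.jq)
  rw [ModularCurve.qExpand_one_apply]

lemma jBarD_mem (d : ℕ) [NeZero d] (hd : d ∣ N) : jBarD N d hd ∈ Rsub N :=
  Algebra.subset_adjoin ⟨d, inferInstance, hd, rfl⟩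

lemma scaleH_one (z : ℍ) : scaleH 1 z = z := by
  apply UpperHalfPlane.ext
  show ((1 : ℕ) : ℂ) * (z : ℂ) = z
  simp

lemma isFractionRing_Rsub
    (hfrac : ∀ f : FN, ∃ r s : ↥(Rsub N), s ≠ 0 ∧ f * (s : FN) = r) :
    IsFractionRing ↥(Rsub N) FN := by
  refine IsFractionRing.of_field _ _ ?_
  intro f
  obtain ⟨r, s, hs, h⟩ := hfrac f
  refine ⟨r, s, ?_⟩
  have hs' : (s : FN) ≠ 0 := fun h0 => hs (Subtype.ext h0)
  exact (eq_div_iff hs').mpr h

end main

end Fermat.Agent.H61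

end
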