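/-
P-GENUS / GEN-14 (helper61), part 5: the analytic datum at a point of `ℍ` (main construction).
-/
import Mathlib
import Fermat.Agent.H23.BlueprintAn
import Fermat.Agent.H61.GenAn4

set_option autoImplicit false

noncomputable section

open UpperHalfPlane Filter Topology
open scoped MatrixGroups Manifold

namespace Fermat.Agent.H61

open Fermat.Agent.H23

section main

variable {N : ℕ} [NeZero N]

local notation "Kbar" => AlgebraicClosure ℚ
set_option quotPrecheck false in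
local notation "FN" => ↥(ModularCurve.modularFunctionFieldBar N)

lemma SL_det_pos (γ : SL(2, ℤ)) : 0 < ((γ : GL (Fin 2) ℝ)).val.det := by
  have : ((γ : GL (Fin 2) ℝ)).val.det = 1 :=
    (Matrix.SpecialLinearGroup.map (Int.castRingHom ℝ) γ).det_coe
  rw [this]; exact one_pos

lemma SL_det_pos' (γ : SL(2, ℤ)) : 0 < ((γ : GL (Fin 2) ℝ)).det.val := SL_det_pos γ

lemma denom_pow_fixed (g : SL(2, ℤ)) (z₀ : ℍ) (hg : g • z₀ = z₀) (k : ℕ) :
    (g ^ k) • z₀ = z₀ ∧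
      denom ((g ^ k : SL(2, ℤ)) : GL (Fin 2) ℝ) z₀ = denom (g : GL (Fin 2) ℝ) z₀ ^ k := by
  induction k with
  | zero =>
    refine ⟨by simp, ?_⟩
    simp
  | succ k ih =>
    refine ⟨by rw [pow_succ, mul_smul, hg, ih.1], ?_⟩
    have hcoe : ((g ^ (k + 1) : SL(2, ℤ)) : GL (Fin 2) ℝ)
        = ((g ^ k : SL(2, ℤ)) : GL (Fin 2) ℝ) * (g : GL (Fin 2) ℝ) := by
      rw [pow_succ]; simp only [map_mul]
    rw [hcoe, denom_cocycle _ _ z₀.im_ne_zero, ← coe_smul_of_det_pos (SL_det_pos' g) z₀]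
    have : ((g : GL (Fin 2) ℝ) • z₀) = z₀ := hg
    rw [this, ih.2, pow_succ]

lemma div_gcd_dvd_of_dvd_mul {e k n : ℕ} (he : 0 < e) (h : e ∣ k * n) :
    e / Nat.gcd e k ∣ n := by
  have hd : 0 < Nat.gcd e k := Nat.gcd_pos_of_pos_left k he
  have hcop : Nat.Coprime (e / Nat.gcd e k) (k / Nat.gcd e k) := Nat.coprime_div_gcd_div_gcd hd
  obtain ⟨e', he'⟩ := Nat.gcd_dvd_left e k
  obtain ⟨k', hk'⟩ := Nat.gcd_dvd_right e k
  have e1 : e / Nat.gcd e k = e' := Nat.div_eq_of_eq_mul_right hd he'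
  have k1 : k / Nat.gcd e k = k' := Nat.div_eq_of_eq_mul_right hd hk'
  rw [e1, k1] at hcop
  rw [e1]
  have h2 : Nat.gcd e k * e' ∣ Nat.gcd e k * (k' * n) := by
    rw [← he', ← mul_assoc, ← hk']; exact h
  have h3 : e' ∣ k' * n := Nat.dvd_of_mul_dvd_mul_left hd h2
  exact hcop.dvd_of_dvd_mul_left h3

theorem analyticDatum_of_point
    (ι : Kbar →+* ℂ) (Θ : ↥(Rsub N) →+* (ℍ → ℂ))
    (hΘinj : Function.Injective Θ) (hΘmd : ∀ r, MDiff (Θ r))
    (hΘc : ∀ c : Kbar, Θ (algebraMap Kbar ↥(Rsub N) c) = fun _ => ι c)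
    (hΘJ : ∀ (d : ℕ) (_ : NeZero d) (hd : d ∣ N) (h : jBarD N d hd ∈ Rsub N),
      Θ ⟨jBarD N d hd, h⟩ = fun z => jfun (scaleH d z))
    (hfrac : ∀ f : FN, ∃ r s : ↥(Rsub N), s ≠ 0 ∧ f * (s : FN) = r)
    (hjinv : ∀ (γ : SL(2, ℤ)) (z : ℍ), jfun (γ • z) = jfun z)
    (hsep1 : ∀ γ : SL(2, ℤ), (∀ z : ℍ, jfun (scaleH N (γ • z)) = jfun (scaleH N z)) →
      γ ∈ CongruenceSubgroup.Gamma0 N)
    (hsep2 : ∀ (d : ℕ) (_ : NeZero d), d ∣ N → ∀ γ ∈ CongruenceSubgroup.Gamma0 N, ∀ z : ℍ,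
      jfun (scaleH d (γ • z)) = jfun (scaleH d z))
    (z₀ : ℍ) (G : MerGermField (z₀ : ℂ)) (a : Kbar) (g : SL(2, ℤ)) (e₀ : ℕ)
    (hg : g • z₀ = z₀) (he₀ : 0 < e₀)
    (hord : meromorphicOrderAt ((fun z => jfun z - ι a) ∘ ofComplex) (z₀ : ℂ)
      = ((e₀ : ℤ) : WithTop ℤ))
    (hprim : IsPrimitiveRoot (denom g z₀ ^ 2) e₀) :
    Nonempty (AnalyticDatum N (jBar N - algebraMap Kbar FN a) g e₀) := by
  classical
  have hFR : IsFractionRing ↥(Rsub N) FN := isFractionRing_Rsub hfrac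
  have hinvΘ := theta_invariant ι Θ hΘc hΘJ hsep2
  -- the pulled-back homs
  let Θγ : SL(2, ℤ) → (↥(Rsub N) →+* (ℍ → ℂ)) := fun γ => (pullHom γ).comp Θ
  have hΘγ : ∀ γ r z, Θγ γ r z = Θ r (γ⁻¹ • z) := fun γ r z => rfl
  have hΘγmd : ∀ γ r, MDiff (Θγ γ r) := fun γ r => mdiff_pullHom γ (hΘmd r)
  have hΘγinj : ∀ γ, Function.Injective (Θγ γ) := fun γ => (pullHom_injective γ).comp hΘinj
  let sR : SL(2, ℤ) → (↥(Rsub N) →+* G.M) := fun γ => germHom G (Θγ γ) (hΘγmd γ)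
  have hsRinj : ∀ γ, Function.Injective (sR γ) :=
    fun γ => germHom_injective G _ _ (hΘγinj γ)
  let σ : SL(2, ℤ) → (FN →+* G.M) := fun γ => IsFractionRing.lift (hsRinj γ)
  have hσR : ∀ γ (r : ↥(Rsub N)), σ γ (algebraMap ↥(Rsub N) FN r) = sR γ r :=
    fun γ r => IsFractionRing.lift_algebraMap (hsRinj γ) r
  have hσinj : ∀ γ, Function.Injective (σ γ) := fun γ => (σ γ).injective
  -- constants
  have hconst : ∀ γ (c : Kbar), σ γ (algebraMap Kbar FN c) = G.germ (fun _ => ι c) := by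
    intro γ c
    rw [IsScalarTower.algebraMap_apply Kbar ↥(Rsub N) FN c, hσR]
    show G.germ (Θγ γ (algebraMap Kbar ↥(Rsub N) c) ∘ ofComplex) = _
    congr 1
    funext z
    show Θ (algebraMap Kbar ↥(Rsub N) c) _ = _
    rw [hΘc]
  -- the element `y`
  let yR : ↥(Rsub N) := ⟨jBarD N 1 (one_dvd N), jBarD_mem 1 (one_dvd N)⟩
    - algebraMap Kbar ↥(Rsub N) a
  have hyR : algebraMap ↥(Rsub N) FN yR = jBar N - algebraMap Kbar FN a := by
    rw [map_sub, ← IsScalarTower.algebraMap_apply Kbar ↥(Rsub N) FN a, jBar_eq_jBarD_one]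
    rfl
  have hΘy : ∀ γ, Θγ γ yR = fun z => jfun z - ι a := by
    intro γ
    funext z
    rw [hΘγ]
    show Θ (_ - _) _ = _
    rw [map_sub, Pi.sub_apply, hΘJ 1 inferInstance (one_dvd N), hΘc]
    simp only [scaleH_one, hjinv]
  have hσy : ∀ γ, σ γ (jBar N - algebraMap Kbar FN a)
      = G.germ ((fun z => jfun z - ι a) ∘ ofComplex) := by
    intro γ
    rw [← hyR, hσR]
    show G.germ (Θγ γ yR ∘ ofComplex) = _
    rw [hΘy]
  -- valuations of elements of `Rsub N`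
  have hvalR : ∀ γ (r : ↥(Rsub N)), G.val (sR γ r)
      = meromorphicOrderAt (Θγ γ r ∘ ofComplex) (z₀ : ℂ) :=
    fun γ r => val_germHom G _ _ r
  -- fractions
  have hfracσ : ∀ (γ : SL(2, ℤ)) (f : FN) (r s : ↥(Rsub N)), f * (s : FN) = r →
      σ γ f * sR γ s = sR γ r := by
    intro γ f r s h
    rw [← hσR, ← hσR, ← map_mul]
    exact congrArg _ h
  -- `σ_eq_iff`
  have hσ_eq_iff : ∀ γ γ' : SL(2, ℤ),
      σ γ = σ γ' ↔ γ⁻¹ * γ' ∈ CongruenceSubgroup.Gamma0 N := by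
    intro γ γ'
    constructor
    · intro h
      apply hsep1
      intro z
      let JN : ↥(Rsub N) := ⟨jBarD N N dvd_rfl, jBarD_mem N dvd_rfl⟩
      have h1 : sR γ JN = sR γ' JN := by rw [← hσR, ← hσR, h]
      have h2 : Θγ γ JN = Θγ γ' JN := (germHom_eq_iff G _ _ _ _ JN JN).mp h1
      have h3 := congrFun h2 (γ' • z)
      rw [hΘγ, hΘγ, hΘJ N inferInstance dvd_rfl] at h3
      simpa [mul_smul] using h3
    · intro h
      apply IsFractionRing.ringHom_ext (A := ↥(Rsub N))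
      intro r
      rw [hσR, hσR]
      apply (germHom_eq_iff G _ _ _ _ r r).mpr
      funext z
      rw [hΘγ, hΘγ]
      have e : γ'⁻¹ • z = (γ⁻¹ * γ')⁻¹ • (γ⁻¹ • z) := by
        rw [← mul_smul]; congr 1; group
      rw [e, hinvΘ r _ (inv_mem h)]
  -- `val_g`
  have hfix_inv : (g⁻¹ : SL(2, ℤ)) • z₀ = z₀ := by
    rw [inv_smul_eq_iff, hg]
  have hval_g_R : ∀ γ (r : ↥(Rsub N)), G.val (sR (g * γ) r) = G.val (sR γ r) := by
    intro γ r
    rw [hvalR, hvalR]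
    have e : (Θγ (g * γ) r ∘ ofComplex)
        = fun z => (Θγ γ r) (((g⁻¹ : SL(2, ℤ)) : GL (Fin 2) ℝ) • ofComplex z) := by
      funext z
      show Θ r ((g * γ)⁻¹ • ofComplex z) = Θ r (γ⁻¹ • (g⁻¹ • ofComplex z))
      rw [mul_inv_rev, mul_smul]
    rw [e, meromorphicOrderAt_comp_smul (SL_det_pos g⁻¹)]
    have : (((g⁻¹ : SL(2, ℤ)) : GL (Fin 2) ℝ) • z₀) = z₀ := hfix_inv
    rw [this]
    rfl
  have hs_ne : ∀ γ (s : ↥(Rsub N)), s ≠ 0 → G.val (sR γ s) ≠ ⊤ := by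
    intro γ s hs
    rw [Ne, AddValuation.top_iff]
    intro h0
    exact hs (hsRinj γ (h0.trans (map_zero _).symm))
  have hval_g : ∀ γ (f : FN), G.val (σ (g * γ) f) = G.val (σ γ f) := by
    intro γ f
    obtain ⟨r, s, hs, h⟩ := hfrac f
    have v1 := congrArg G.val (hfracσ (g * γ) f r s h)
    have v2 := congrArg G.val (hfracσ γ f r s h)
    rw [AddValuation.map_mul] at v1 v2
    rw [hval_g_R, hval_g_R] at v1
    exact WithTop.add_right_cancel (hs_ne γ s hs) (v1.trans v2.symm)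
  -- `val_dvd`
  have hval_dvd : ∀ (γ : SL(2, ℤ)) (k : ℕ), γ⁻¹ * g ^ k * γ ∈ CongruenceSubgroup.Gamma0 N →
      ∀ f : FN, f ≠ 0 → ∃ m : ℤ,
        G.val (σ γ f) = ((((e₀ / Nat.gcd e₀ k : ℕ) : ℤ) * m : ℤ) : WithTop ℤ) := by
    intro γ k hk f hf
    have hR : ∀ r : ↥(Rsub N), r ≠ 0 → ∃ n : ℕ,
        G.val (sR γ r) = ((n : ℤ) : WithTop ℤ) ∧ (e₀ / Nat.gcd e₀ k) ∣ n := by
      intro r hr
      obtain ⟨n, hn⟩ := exists_nat_order (Θγ γ) (hΘγmd γ) (hΘγinj γ) z₀ r hr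
      refine ⟨n, by rw [hvalR, hn]; rfl, ?_⟩
      have hinvk : ∀ z, Θγ γ r ((g ^ k) • z) = Θγ γ r z := by
        intro z
        rw [hΘγ, hΘγ]
        have e : γ⁻¹ • (g ^ k) • z = (γ⁻¹ * g ^ k * γ) • (γ⁻¹ • z) := by
          simp [mul_smul]
        rw [e, hinvΘ r _ hk]
      obtain ⟨hfixk, hden⟩ := denom_pow_fixed g z₀ hg k
      have key := denom_sq_pow_eq_one (hΘγmd γ r) (g ^ k) z₀ hfixk hinvk n hn
      rw [hden] at key
      have key' : (denom g z₀ ^ 2) ^ (k * n) = 1 := by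
        rw [← key]; ring
      exact div_gcd_dvd_of_dvd_mul he₀ ((hprim.pow_eq_one_iff_dvd _).mp key')
    obtain ⟨r, s, hs, h⟩ := hfrac f
    have hr : r ≠ 0 := by
      rintro rfl
      have hs' : (s : FN) ≠ 0 := fun h0 => hs (Subtype.ext h0)
      exact (mul_ne_zero hf hs') (by rw [h]; rfl)
    obtain ⟨nr, hnr, dr⟩ := hR r hr
    obtain ⟨ns, hns, ds⟩ := hR s hs
    have v := congrArg G.val (hfracσ γ f r s h)
    rw [AddValuation.map_mul, hnr, hns] at v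
    have hfne : G.val (σ γ f) ≠ ⊤ := by
      rw [Ne, AddValuation.top_iff]
      intro h0
      exact hf (hσinj γ (h0.trans (map_zero _).symm))
    obtain ⟨m, hm⟩ := WithTop.ne_top_iff_exists.mp hfne
    rw [← hm] at v ⊢
    have v' : m + (ns : ℤ) = (nr : ℤ) := by exact_mod_cast v
    obtain ⟨qr, hqr⟩ := dr
    obtain ⟨qs, hqs⟩ := ds
    refine ⟨(qr : ℤ) - qs, ?_⟩
    congr 1
    have : m = (nr : ℤ) - ns := by linarith
    rw [this, hqr, hqs]
    push_cast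
    ring
  exact ⟨{
    M := G.M
    val := G.val
    der := G.der
    der_add := G.der_add
    der_mul := G.der_mul
    val_der := G.val_der
    σ := σ
    val_const := by
      intro γ c hc
      rw [hconst, G.val_germ _ (MeromorphicAt.const _ _), meromorphicOrderAt_const]
      have : ι c ≠ 0 := (map_ne_zero ι).mpr hc
      simp [this]
    der_const := by
      intro γ c
      rw [hconst, G.der_germ _ (MeromorphicAt.const _ _)]
      have : deriv (fun _ : ℂ => ι c) = fun _ => 0 := by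
        funext z; simp
      rw [this]
      exact germ_zero G
    σ_const := by
      intro γ γ' c
      rw [hconst, hconst]
    σ_eq_iff := hσ_eq_iff
    σ_y := by
      intro γ γ'
      rw [hσy, hσy]
    val_y := by
      intro γ
      rw [hσy, G.val_germ _ (analyticAt_comp_ofComplex (f := fun z => jfun z - ι a)
        (by simpa [hΘy 1] using hΘγmd 1 yR) z₀).meromorphicAt, hord]
    val_g := hval_g
    val_dvd := hval_dvd }⟩

end main

end Fermat.Agent.H61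

end
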