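/-
P-GENUS / GEN-14 (helper61), part 6: analytic data at the finite points of the `j`-line
(generic points, `j = 0`, `j = 1728`).
-/
import Mathlib
import Fermat.Agent.H23.BlueprintAn
import Fermat.Agent.H61.GenAn5

set_option autoImplicit false

noncomputable section

open UpperHalfPlane Filter Topology
open scoped MatrixGroups Manifold

namespace Fermat.Agent.H61

open Fermat.Agent.H23

/-- A fixed point of `S` satisfies `z² = -1`. -/
lemma sq_eq_neg_one_of_S_fixed (z : ℍ) (h : ModularGroup.S • z = z) : (z : ℂ) ^ 2 = -1 := by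
  have h1 := congrArg (fun w : ℍ => (w : ℂ)) h
  simp only [modular_S_smul] at h1
  have hz : (z : ℂ) ≠ 0 := z.ne_zero
  have h2 : (-(z : ℂ))⁻¹ = z := h1
  have hnz : (-(z : ℂ)) ≠ 0 := neg_ne_zero.mpr hz
  have h3 : (z : ℂ) * (-(z : ℂ)) = 1 := by
    nth_rewrite 1 [← h2]
    exact inv_mul_cancel₀ hnz
  linear_combination -h3

/-- A fixed point of `S * T` satisfies `z² + z + 1 = 0`. -/
lemma quad_of_ST_fixed (z : ℍ) (h : (ModularGroup.S * ModularGroup.T) • z = z) :
    (z : ℂ) ^ 2 + z + 1 = 0 := by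
  rw [mul_smul, modular_T_smul] at h
  have h1 := congrArg (fun w : ℍ => (w : ℂ)) h
  simp only [modular_S_smul] at h1
  have h2 : (-(((1 : ℝ) +ᵥ z : ℍ) : ℂ))⁻¹ = z := h1
  rw [coe_vadd] at h2
  have hne : (-(((1 : ℝ) : ℂ) + (z : ℂ))) ≠ 0 := by
    intro h0
    rw [h0, inv_zero] at h2
    exact z.ne_zero h2.symm
  have h3 : (z : ℂ) * (-(((1 : ℝ) : ℂ) + (z : ℂ))) = 1 := by
    nth_rewrite 1 [← h2]
    exact inv_mul_cancel₀ hne
  push_cast at h3
  linear_combination -h3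

lemma denom_ST (z : ℍ) : denom (ModularGroup.S * ModularGroup.T : SL(2, ℤ)) z = z + 1 := by
  rw [ModularGroup.denom_apply]
  have h1 : (ModularGroup.S * ModularGroup.T : SL(2, ℤ)) 1 0 = 1 := by decide
  have h2 : (ModularGroup.S * ModularGroup.T : SL(2, ℤ)) 1 1 = 1 := by decide
  rw [h1, h2]
  simp

lemma isPrimitiveRoot_denom_S (z : ℍ) (h : ModularGroup.S • z = z) :
    IsPrimitiveRoot (denom (ModularGroup.S : SL(2, ℤ)) z ^ 2) 2 := by
  rw [ModularGroup.denom_S, sq_eq_neg_one_of_S_fixed z h]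
  exact IsPrimitiveRoot.neg_one 0 (by norm_num)

lemma isPrimitiveRoot_denom_ST (z : ℍ) (h : (ModularGroup.S * ModularGroup.T) • z = z) :
    IsPrimitiveRoot (denom (ModularGroup.S * ModularGroup.T : SL(2, ℤ)) z ^ 2) 3 := by
  have hq := quad_of_ST_fixed z h
  have e : denom (ModularGroup.S * ModularGroup.T : SL(2, ℤ)) z ^ 2 = (z : ℂ) := by
    rw [denom_ST]
    linear_combination hq
  rw [e]
  have h3 : (z : ℂ) ^ 3 = 1 := by linear_combination ((z : ℂ) - 1) * hq
  have hne1 : (z : ℂ) ≠ 1 := by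
    intro h1
    rw [h1] at hq
    norm_num at hq
  refine IsPrimitiveRoot.mk_of_lt _ (by norm_num) h3 ?_
  intro l hl0 hl3
  interval_cases l
  · simpa using hne1
  · intro h2
    -- z² = 1 and z² = -z - 1 give z = -2, contradiction
    have : (z : ℂ) = -2 := by linear_combination hq - h2
    rw [this] at hq
    norm_num at hq

theorem analytic_finite_points (N : ℕ) [NeZero N]
    (hG : MerGermStatement) (hC : CoreStatement N) (hJ : JFactsStatement)
    (hS : SeparationStatement N) :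
    (∀ a : AlgebraicClosure ℚ, a ≠ 0 → a ≠ 1728 →
      Nonempty (AnalyticDatum N (jBar N - algebraMap _ _ a) 1 1)) ∧
    Nonempty (AnalyticDatum N (jBar N - algebraMap _ _ (0 : AlgebraicClosure ℚ))
      (ModularGroup.S * ModularGroup.T) 3) ∧
    Nonempty (AnalyticDatum N (jBar N - algebraMap _ _ (1728 : AlgebraicClosure ℚ))
      ModularGroup.S 2) := by
  obtain ⟨ι, Θ, hΘinj, hΘmd, hΘc, hΘJ, hfrac⟩ := hC
  obtain ⟨hjinv, -, hjsurj, hjgen, ⟨zi, hSi, hji, hoi⟩, ⟨zρ, hSTρ, hjρ, hoρ⟩⟩ := hJ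
  obtain ⟨hsep1, hsep2⟩ := hS
  refine ⟨?_, ?_, ?_⟩
  · intro a ha0 ha1
    obtain ⟨z₀, hz₀⟩ := hjsurj (ι a)
    obtain ⟨G⟩ := hG (z₀ : ℂ)
    have h0 : jfun z₀ ≠ 0 := by
      rw [hz₀]; exact (map_ne_zero ι).mpr ha0
    have h1 : jfun z₀ ≠ 1728 := by
      rw [hz₀]
      intro h
      apply ha1
      apply ι.injective
      rw [h, map_ofNat]
    have hord := hjgen z₀ h0 h1
    rw [hz₀] at hord
    refine analyticDatum_of_point ι Θ hΘinj hΘmd hΘc hΘJ hfrac hjinv hsep1 hsep2 z₀ G a 1 1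
      (one_smul _ _) one_pos (by rw [hord]; rfl) ?_
    have : denom ((1 : SL(2, ℤ)) : GL (Fin 2) ℝ) z₀ = 1 := by simp
    rw [this, one_pow]
    exact IsPrimitiveRoot.one
  · obtain ⟨G⟩ := hG (zρ : ℂ)
    refine analyticDatum_of_point ι Θ hΘinj hΘmd hΘc hΘJ hfrac hjinv hsep1 hsep2 zρ G 0
      (ModularGroup.S * ModularGroup.T) 3 hSTρ (by norm_num) ?_
      (isPrimitiveRoot_denom_ST zρ hSTρ)
    have e : ((fun z => jfun z - ι 0) ∘ ofComplex) = jfun ∘ ofComplex := by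
      funext z; simp
    rw [e, hoρ]; rfl
  · obtain ⟨G⟩ := hG (zi : ℂ)
    refine analyticDatum_of_point ι Θ hΘinj hΘmd hΘc hΘJ hfrac hjinv hsep1 hsep2 zi G 1728
      ModularGroup.S 2 hSi (by norm_num) ?_ (isPrimitiveRoot_denom_S zi hSi)
    have e : ((fun z => jfun z - ι 1728) ∘ ofComplex)
        = ((fun z => jfun z - 1728) ∘ ofComplex) := by
      funext z
      simp only [Function.comp_apply, map_ofNat]
    rw [e, hoi]; rfl

end Fermat.Agent.H61

end
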