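/-
P-ES / KL-DESC-a (helper61): coefficient descent.  Every element of
`laurentBaseChange ℚ̄ F₀` comes from `laurentBaseChange K₁ F₀` for every field `K₁ → ℚ̄`
whose image contains a suitable number field.
-/
import Mathlib
import Fermat.Agent.H93.KL.DescInterfaces

set_option autoImplicit false

noncomputable section

namespace Fermat.Agent.H61

open ModularCurve AlgebraicCurve Fermat.Agent.H93.KL

/-- The descent predicate of KL-DESC-a. -/
def KLDescPred (F₀ : IntermediateField ℚ (LaurentSeries ℚ)) (f : LaurentSeries QBar) : Prop :=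
  ∃ K₀ : IntermediateField ℚ QBar, FiniteDimensional ℚ ↥K₀ ∧
    ∀ (K₁ : Type) [Field K₁] [Algebra ℚ K₁] (ι : K₁ →+* QBar),
      (∀ c ∈ K₀, c ∈ ι.range) →
      ∃ f₁ : LaurentSeries K₁, f₁ ∈ laurentBaseChange K₁ F₀ ∧ coeffMap ι f₁ = f

lemma klDescPred_binary (F₀ : IntermediateField ℚ (LaurentSeries ℚ))
    {x y z : LaurentSeries QBar} (hx : KLDescPred F₀ x) (hy : KLDescPred F₀ y)
    (op : ∀ (K : Type) [Field K], LaurentSeries K → LaurentSeries K → LaurentSeries K)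
    (hop_mem : ∀ (K₁ : Type) [Field K₁] [Algebra ℚ K₁] (a b : LaurentSeries K₁),
      a ∈ laurentBaseChange K₁ F₀ → b ∈ laurentBaseChange K₁ F₀ →
        op K₁ a b ∈ laurentBaseChange K₁ F₀)
    (hop_map : ∀ (K₁ : Type) [Field K₁] (ι : K₁ →+* QBar) (a b : LaurentSeries K₁),
      coeffMap ι (op K₁ a b) = op QBar (coeffMap ι a) (coeffMap ι b))
    (hz : z = op QBar x y) : KLDescPred F₀ z := by
  obtain ⟨Kx, hKx, hX⟩ := hx
  obtain ⟨Ky, hKy, hY⟩ := hy
  refine ⟨Kx ⊔ Ky, ?_, fun K₁ _ _ ι hK₁ => ?_⟩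
  · have := hKx
    have := hKy
    exact IntermediateField.finiteDimensional_sup Kx Ky
  · obtain ⟨x₁, hx₁, rfl⟩ := hX K₁ ι (fun c hc => hK₁ c ((le_sup_left : Kx ≤ Kx ⊔ Ky) hc))
    obtain ⟨y₁, hy₁, rfl⟩ := hY K₁ ι (fun c hc => hK₁ c ((le_sup_right : Ky ≤ Kx ⊔ Ky) hc))
    exact ⟨op K₁ x₁ y₁, hop_mem K₁ x₁ y₁ hx₁ hy₁, by rw [hz, hop_map]⟩

lemma klDescPred_unary (F₀ : IntermediateField ℚ (LaurentSeries ℚ))
    {x z : LaurentSeries QBar} (hx : KLDescPred F₀ x)
    (op : ∀ (K : Type) [Field K], LaurentSeries K → LaurentSeries K)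
    (hop_mem : ∀ (K₁ : Type) [Field K₁] [Algebra ℚ K₁] (a : LaurentSeries K₁),
      a ∈ laurentBaseChange K₁ F₀ → op K₁ a ∈ laurentBaseChange K₁ F₀)
    (hop_map : ∀ (K₁ : Type) [Field K₁] (ι : K₁ →+* QBar) (a : LaurentSeries K₁),
      coeffMap ι (op K₁ a) = op QBar (coeffMap ι a))
    (hz : z = op QBar x) : KLDescPred F₀ z := by
  obtain ⟨Kx, hKx, hX⟩ := hx
  refine ⟨Kx, hKx, fun K₁ _ _ ι hK₁ => ?_⟩
  obtain ⟨x₁, hx₁, rfl⟩ := hX K₁ ι hK₁
  exact ⟨op K₁ x₁, hop_mem K₁ x₁ hx₁, by rw [hz, hop_map]⟩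

/-- **KL-DESC-a.** -/
theorem coeffDescent : CoeffDescentStatement := by
  intro F₀ f hf
  show KLDescPred F₀ f
  rw [mem_laurentBaseChange_iff] at hf
  induction hf using Subfield.closure_induction with
  | mem y hy =>
      rcases hy with ⟨c, rfl⟩ | ⟨z, hz, rfl⟩
      · refine ⟨IntermediateField.adjoin ℚ {c}, ?_, fun K₁ _ _ ι hK₁ => ?_⟩
        · exact IntermediateField.adjoin.finiteDimensional
            ((AlgebraicClosure.isAlgebraic ℚ).isAlgebraic c).isIntegral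
        · obtain ⟨c₁, hc₁⟩ := hK₁ c (IntermediateField.mem_adjoin_simple_self ℚ c)
          refine ⟨algebraMap K₁ (LaurentSeries K₁) c₁,
            (laurentBaseChange K₁ F₀).algebraMap_mem _, ?_⟩
          rw [algebraMap_laurentSeries_eq_single, coeffMap_single, hc₁,
            ← algebraMap_laurentSeries_eq_single]
      · refine ⟨⊥, ?_, fun K₁ _ _ ι _ => ?_⟩
        · infer_instance
        · refine ⟨coeffEmb K₁ z, coeffEmb_mem_laurentBaseChange K₁ hz, ?_⟩
          rw [coeffEmb, coeffMap_coeffMap]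
          exact coeffMap_congr (RingHom.ext fun c => by simp) z
  | one =>
      refine ⟨⊥, inferInstance, fun K₁ _ _ ι _ => ⟨1, one_mem _, map_one _⟩⟩
  | add x y _ _ hx hy =>
      exact klDescPred_binary F₀ hx hy (fun K _ a b => a + b)
        (fun K₁ _ _ a b ha hb => add_mem ha hb) (fun K₁ _ ι a b => map_add _ _ _) rfl
  | neg x _ hx =>
      exact klDescPred_unary F₀ hx (fun K _ a => -a)
        (fun K₁ _ _ a ha => neg_mem ha) (fun K₁ _ ι a => map_neg _ _) rfl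
  | inv x _ hx =>
      exact klDescPred_unary F₀ hx (fun K _ a => a⁻¹)
        (fun K₁ _ _ a ha => inv_mem ha) (fun K₁ _ ι a => map_inv₀ _ _) rfl
  | mul x y _ _ hx hy =>
      exact klDescPred_binary F₀ hx hy (fun K _ a b => a * b)
        (fun K₁ _ _ a b ha hb => mul_mem ha hb) (fun K₁ _ ι a b => map_mul _ _ _) rfl

end Fermat.Agent.H61
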