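/-
P-ES / ES-A / PL-2 (helper61), part 1: the holomorphic realisation `Θ` of `RsubC N` obtained
from `CoreCStatement` and `RsubRepStatement`.
-/
import Fermat.Agent.H23.EsA.Lemmas
import Fermat.Agent.H61.GenAn6

set_option autoImplicit false
set_option linter.unusedSectionVars false

noncomputable section

open UpperHalfPlane Filter Topology
open scoped MatrixGroups Manifold

namespace Fermat.Agent.H61

open Fermat.Agent.H23 Fermat.Agent.H23.EsA Fermat.Agent.H44

section theta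

variable {N : ℕ} [NeZero N]

/-- The coercion of `RsubC N` into Laurent series, as a ring homomorphism. -/
def esCoeHom (N : ℕ) [NeZero N] : ↥(RsubC N) →+* LaurentSeries ℂ :=
  ((FC N).val : ↥(FC N) →+* LaurentSeries ℂ).comp
    ((RsubC N).val : ↥(RsubC N) →+* ↥(FC N))

lemma esCoeHom_apply (r : ↥(RsubC N)) :
    esCoeHom N r = (((r : ↥(FC N))) : LaurentSeries ℂ) := rfl

lemma esCoeHom_injective : Function.Injective (esCoeHom N) := by
  intro r s h
  exact Subtype.ext (Subtype.ext h)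

lemma esCoe_algebraMap (c : ℂ) :
    ((algebraMap ℂ ↥(FC N) c : ↥(FC N)) : LaurentSeries ℂ) = HahnSeries.C c := by
  have h1 : ((algebraMap ℂ ↥(FC N) c : ↥(FC N)) : LaurentSeries ℂ)
      = algebraMap ℂ (LaurentSeries ℂ) c := rfl
  rw [h1, ModularCurve.algebraMap_laurentSeries_eq_single]
  rfl

lemma rep_const (c : ℂ) : Rep N (fun _ => c) (algebraMap ℂ ↥(FC N) c) := by
  show LaurentRel _ _
  rw [esCoe_algebraMap]
  exact laurentRel_const c

lemma rep_mul {h h' : ℍ → ℂ} {f f' : ↥(FC N)} (H : Rep N h f) (H' : Rep N h' f') :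
    Rep N (h * h') (f * f') := by
  show LaurentRel _ _
  have : (((f * f' : ↥(FC N))) : LaurentSeries ℂ)
      = (f : LaurentSeries ℂ) * (f' : LaurentSeries ℂ) := rfl
  rw [this]
  exact LaurentRel.mul H H'

lemma rep_add {h h' : ℍ → ℂ} {f f' : ↥(FC N)} (H : Rep N h f) (H' : Rep N h' f') :
    Rep N (h + h') (f + f') := by
  show LaurentRel _ _
  have : (((f + f' : ↥(FC N))) : LaurentSeries ℂ)
      = (f : LaurentSeries ℂ) + (f' : LaurentSeries ℂ) := rfl
  rw [this]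
  exact LaurentRel.add H H'

lemma rep_unique_left {h h' : ℍ → ℂ} {f : ↥(FC N)} (H : Rep N h f) (H' : Rep N h' f) :
    h = h' := LaurentRel.unique_left H H'

lemma rep_unique_right {h : ℍ → ℂ} {f f' : ↥(FC N)} (H : Rep N h f) (H' : Rep N h f') :
    f = f' := Subtype.ext (LaurentRel.unique_right H H')

lemma rep_mdiff {h : ℍ → ℂ} {f : ↥(FC N)} (H : Rep N h f) : MDiff h :=
  LaurentRel.mdifferentiable H

lemma jC_mem (d : ℕ) [NeZero d] (hd : d ∣ N) : jC N d hd ∈ RsubC N :=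
  Algebra.subset_adjoin ⟨d, inferInstance, hd, rfl⟩

/-- The holomorphic realisation of `RsubC N`. -/
theorem exists_theta (hR : RsubRepStatement N) :
    ∃ Θ : ↥(RsubC N) →+* (ℍ → ℂ), ∀ r : ↥(RsubC N), Rep N (Θ r) (r : ↥(FC N)) := by
  obtain ⟨Θ, hΘ⟩ := gen11_exists_lift (esCoeHom N) (fun r => by
    obtain ⟨h, hh, -⟩ := hR (r : ↥(FC N)) r.2
    exact ⟨h, hh⟩)
  exact ⟨Θ, hΘ⟩

lemma isFractionRing_RsubC
    (hfrac : ∀ f : ↥(FC N), ∃ r s : ↥(FC N), r ∈ RsubC N ∧ s ∈ RsubC N ∧ s ≠ 0 ∧ f * s = r) :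
    IsFractionRing ↥(RsubC N) ↥(FC N) := by
  refine IsFractionRing.of_field _ _ ?_
  intro f
  obtain ⟨r, s, hr, hs, hs0, h⟩ := hfrac f
  refine ⟨⟨r, hr⟩, ⟨s, hs⟩, ?_⟩
  exact (eq_div_iff hs0).mpr h

end theta

end Fermat.Agent.H61

end
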