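/-
P-ES / ES-A / PL-2 (helper61), part 2: the transparent coset datum at a point of `ℍ`
(port of the GEN-14 engine `analyticDatum_of_point` to the function field over `ℂ`).
-/
import Fermat.Agent.H23.EsA.Lemmas
import Fermat.Agent.H61.ESPoint1

set_option autoImplicit false
set_option linter.unusedSectionVars false

noncomputable section

open UpperHalfPlane Filter Topology
open scoped MatrixGroups Manifold

namespace Fermat.Agent.H61

open Fermat.Agent.H23 Fermat.Agent.H23.EsA Fermat.Agent.H44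

section main

variable {N : ℕ} [NeZero N]

/-- The order at `z₀` of a product of two holomorphic functions on `ℍ`. -/
lemma order_mul_of_mdiff {h₁ h₂ : ℍ → ℂ} (H₁ : MDiff h₁) (H₂ : MDiff h₂) (z₀ : ℍ) :
    meromorphicOrderAt ((h₁ * h₂) ∘ ofComplex) (z₀ : ℂ)
      = meromorphicOrderAt (h₁ ∘ ofComplex) (z₀ : ℂ)
        + meromorphicOrderAt (h₂ ∘ ofComplex) (z₀ : ℂ) := by
  have e : ((h₁ * h₂) ∘ ofComplex) = (h₁ ∘ ofComplex) * (h₂ ∘ ofComplex) := rfl
  rw [e]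
  exact meromorphicOrderAt_mul (analyticAt_comp_ofComplex H₁ z₀).meromorphicAt
    (analyticAt_comp_ofComplex H₂ z₀).meromorphicAt

/-- **PL-2 engine**: the transparent coset datum at a point `z₀` of `ℍ` with stabiliser
generator `g` and `ord_{z₀}(j - a) = e₀`. -/
theorem cosetDatum_of_point
    (Θ : ↥(RsubC N) →+* (ℍ → ℂ))
    (hΘrep : ∀ r : ↥(RsubC N), Rep N (Θ r) (r : ↥(FC N)))
    (hΘJ : ∀ (d : ℕ) (_ : NeZero d) (hd : d ∣ N) (h : jC N d hd ∈ RsubC N),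
      Θ ⟨jC N d hd, h⟩ = fun z => jfun (scaleH d z))
    (hinvΘ : ∀ (r : ↥(RsubC N)) (β : SL(2, ℤ)), β ∈ CongruenceSubgroup.Gamma0 N →
      ∀ z : ℍ, Θ r (β • z) = Θ r z)
    (hfrac : ∀ f : ↥(FC N), ∃ r s : ↥(FC N), r ∈ RsubC N ∧ s ∈ RsubC N ∧ s ≠ 0 ∧ f * s = r)
    (hjinv : ∀ (γ : SL(2, ℤ)) (z : ℍ), jfun (γ • z) = jfun z)
    (hsep1 : ∀ γ : SL(2, ℤ), (∀ z : ℍ, jfun (scaleH N (γ • z)) = jfun (scaleH N z)) →
      γ ∈ CongruenceSubgroup.Gamma0 N)
    (z₀ : ℍ) (G : MerGermField (z₀ : ℂ)) (a : ℂ) (g : SL(2, ℤ)) (e₀ : ℕ)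
    (hg : g • z₀ = z₀) (he₀ : 0 < e₀)
    (hord : meromorphicOrderAt ((fun z => jfun z - a) ∘ ofComplex) (z₀ : ℂ)
      = ((e₀ : ℤ) : WithTop ℤ))
    (hprim : IsPrimitiveRoot (denom g z₀ ^ 2) e₀) :
    ∃ A : CosetDatum ℂ ↥(FC N) (CongruenceSubgroup.Gamma0 N)
        (jC N 1 (one_dvd N) - algebraMap ℂ ↥(FC N) a) g e₀,
      ∀ (γ : SL(2, ℤ)) (f : ↥(FC N)) (h : ℍ → ℂ), f ≠ 0 → Rep N h f →
        A.val (A.σ γ f)
          = meromorphicOrderAt ((fun z => h (γ⁻¹ • z)) ∘ ofComplex) (z₀ : ℂ) := by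
  classical
  have hFR : IsFractionRing ↥(RsubC N) ↥(FC N) := isFractionRing_RsubC hfrac
  have hfrac' : ∀ f : ↥(FC N), ∃ r s : ↥(RsubC N), s ≠ 0 ∧ f * (s : ↥(FC N)) = r := by
    intro f
    obtain ⟨r, s, hr, hs, hs0, h⟩ := hfrac f
    exact ⟨⟨r, hr⟩, ⟨s, hs⟩, fun h0 => hs0 (congrArg Subtype.val h0), h⟩
  have hΘmd : ∀ r, MDiff (Θ r) := fun r => rep_mdiff (hΘrep r)
  have hΘinj : Function.Injective Θ := by
    intro r s h
    have h1 := hΘrep r
    rw [h] at h1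
    exact Subtype.ext (rep_unique_right h1 (hΘrep s))
  have hΘc : ∀ c : ℂ, Θ (algebraMap ℂ ↥(RsubC N) c) = fun _ => c := by
    intro c
    exact rep_unique_left (hΘrep _) (rep_const c)
  -- the pulled-back homs
  let Θγ : SL(2, ℤ) → (↥(RsubC N) →+* (ℍ → ℂ)) := fun γ => (pullHom γ).comp Θ
  have hΘγ : ∀ γ r z, Θγ γ r z = Θ r (γ⁻¹ • z) := fun γ r z => rfl
  have hΘγmd : ∀ γ r, MDiff (Θγ γ r) := fun γ r => mdiff_pullHom γ (hΘmd r)
  have hΘγinj : ∀ γ, Function.Injective (Θγ γ) := fun γ => (pullHom_injective γ).comp hΘinj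
  let sR : SL(2, ℤ) → (↥(RsubC N) →+* G.M) := fun γ => germHom G (Θγ γ) (hΘγmd γ)
  have hsRinj : ∀ γ, Function.Injective (sR γ) :=
    fun γ => germHom_injective G _ _ (hΘγinj γ)
  let σ : SL(2, ℤ) → (↥(FC N) →+* G.M) := fun γ => IsFractionRing.lift (hsRinj γ)
  have hσR : ∀ γ (r : ↥(RsubC N)), σ γ (algebraMap ↥(RsubC N) ↥(FC N) r) = sR γ r :=
    fun γ r => IsFractionRing.lift_algebraMap (hsRinj γ) r
  have hσinj : ∀ γ, Function.Injective (σ γ) := fun γ => (σ γ).injective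
  -- constants
  have hconst : ∀ γ (c : ℂ), σ γ (algebraMap ℂ ↥(FC N) c) = G.germ (fun _ => c) := by
    intro γ c
    rw [IsScalarTower.algebraMap_apply ℂ ↥(RsubC N) ↥(FC N) c, hσR]
    show G.germ (Θγ γ (algebraMap ℂ ↥(RsubC N) c) ∘ ofComplex) = _
    congr 1
    funext z
    show Θ (algebraMap ℂ ↥(RsubC N) c) _ = _
    rw [hΘc]
  -- the element `y`
  let yR : ↥(RsubC N) := ⟨jC N 1 (one_dvd N), jC_mem 1 (one_dvd N)⟩
    - algebraMap ℂ ↥(RsubC N) a
  have hyR : algebraMap ↥(RsubC N) ↥(FC N) yR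
      = jC N 1 (one_dvd N) - algebraMap ℂ ↥(FC N) a := by
    rw [map_sub, ← IsScalarTower.algebraMap_apply ℂ ↥(RsubC N) ↥(FC N) a]
    rfl
  have hΘy : ∀ γ, Θγ γ yR = fun z => jfun z - a := by
    intro γ
    funext z
    rw [hΘγ]
    show Θ (_ - _) _ = _
    rw [map_sub, Pi.sub_apply, hΘJ 1 inferInstance (one_dvd N), hΘc]
    simp only [scaleH_one, hjinv]
  have hσy : ∀ γ, σ γ (jC N 1 (one_dvd N) - algebraMap ℂ ↥(FC N) a)
      = G.germ ((fun z => jfun z - a) ∘ ofComplex) := by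
    intro γ
    rw [← hyR, hσR]
    show G.germ (Θγ γ yR ∘ ofComplex) = _
    rw [hΘy]
  -- valuations of elements of `RsubC N`
  have hvalR : ∀ γ (r : ↥(RsubC N)), G.val (sR γ r)
      = meromorphicOrderAt (Θγ γ r ∘ ofComplex) (z₀ : ℂ) :=
    fun γ r => val_germHom G _ _ r
  -- fractions
  have hfracσ : ∀ (γ : SL(2, ℤ)) (f : ↥(FC N)) (r s : ↥(RsubC N)), f * (s : ↥(FC N)) = r →
      σ γ f * sR γ s = sR γ r := by
    intro γ f r s h
    rw [← hσR, ← hσR, ← map_mul]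
    exact congrArg _ h
  -- `σ_eq_iff`
  have hσ_eq_iff : ∀ γ γ' : SL(2, ℤ),
      σ γ = σ γ' ↔ γ⁻¹ * γ' ∈ CongruenceSubgroup.Gamma0 N := by
    intro γ γ'
    constructor
    · intro h
      apply hsep1
      intro z
      let JN : ↥(RsubC N) := ⟨jC N N dvd_rfl, jC_mem N dvd_rfl⟩
      have h1 : sR γ JN = sR γ' JN := by rw [← hσR, ← hσR, h]
      have h2 : Θγ γ JN = Θγ γ' JN := (germHom_eq_iff G _ _ _ _ JN JN).mp h1
      have h3 := congrFun h2 (γ' • z)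
      rw [hΘγ, hΘγ, hΘJ N inferInstance dvd_rfl] at h3
      simpa [mul_smul] using h3
    · intro h
      apply IsFractionRing.ringHom_ext (A := ↥(RsubC N))
      intro r
      rw [hσR, hσR]
      apply (germHom_eq_iff G _ _ _ _ r r).mpr
      funext z
      rw [hΘγ, hΘγ]
      have e : γ'⁻¹ • z = (γ⁻¹ * γ')⁻¹ • (γ⁻¹ • z) := by
        rw [← mul_smul]; congr 1; group
      rw [e, hinvΘ r _ (inv_mem h)]
  -- `val_g`
  have hfix_inv : (g⁻¹ : SL(2, ℤ)) • z₀ = z₀ := by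
    rw [inv_smul_eq_iff, hg]
  have hval_g_R : ∀ γ (r : ↥(RsubC N)), G.val (sR (g * γ) r) = G.val (sR γ r) := by
    intro γ r
    rw [hvalR, hvalR]
    have e : (Θγ (g * γ) r ∘ ofComplex)
        = fun z => (Θγ γ r) (((g⁻¹ : SL(2, ℤ)) : GL (Fin 2) ℝ) • ofComplex z) := by
      funext z
      show Θ r ((g * γ)⁻¹ • ofComplex z) = Θ r (γ⁻¹ • (g⁻¹ • ofComplex z))
      rw [mul_inv_rev, mul_smul]
    rw [e, meromorphicOrderAt_comp_smul (SL_det_pos g⁻¹)]
    have : (((g⁻¹ : SL(2, ℤ)) : GL (Fin 2) ℝ) • z₀) = z₀ := hfix_inv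
    rw [this]
    rfl
  have hs_ne : ∀ γ (s : ↥(RsubC N)), s ≠ 0 → G.val (sR γ s) ≠ ⊤ := by
    intro γ s hs
    rw [Ne, AddValuation.top_iff]
    intro h0
    exact hs (hsRinj γ (h0.trans (map_zero _).symm))
  have hval_g : ∀ γ (f : ↥(FC N)), G.val (σ (g * γ) f) = G.val (σ γ f) := by
    intro γ f
    obtain ⟨r, s, hs, h⟩ := hfrac' f
    have v1 := congrArg G.val (hfracσ (g * γ) f r s h)
    have v2 := congrArg G.val (hfracσ γ f r s h)
    rw [AddValuation.map_mul] at v1 v2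
    rw [hval_g_R, hval_g_R] at v1
    exact WithTop.add_right_cancel (hs_ne γ s hs) (v1.trans v2.symm)
  -- `val_dvd`
  have hval_dvd : ∀ (γ : SL(2, ℤ)) (k : ℕ), γ⁻¹ * g ^ k * γ ∈ CongruenceSubgroup.Gamma0 N →
      ∀ f : ↥(FC N), f ≠ 0 → ∃ m : ℤ,
        G.val (σ γ f) = ((((e₀ / Nat.gcd e₀ k : ℕ) : ℤ) * m : ℤ) : WithTop ℤ) := by
    intro γ k hk f hf
    have hR : ∀ r : ↥(RsubC N), r ≠ 0 → ∃ n : ℕ,
        G.val (sR γ r) = ((n : ℤ) : WithTop ℤ) ∧ (e₀ / Nat.gcd e₀ k) ∣ n := by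
      intro r hr
      obtain ⟨n, hn⟩ := exists_nat_order (Θγ γ) (hΘγmd γ) (hΘγinj γ) z₀ r hr
      refine ⟨n, by rw [hvalR, hn]; rfl, ?_⟩
      have hinvk : ∀ z, Θγ γ r ((g ^ k) • z) = Θγ γ r z := by
        intro z
        rw [hΘγ, hΘγ]
        have e : γ⁻¹ • (g ^ k) • z = (γ⁻¹ * g ^ k * γ) • (γ⁻¹ • z) := by
          simp [mul_smul]
        rw [e, hinvΘ r _ hk]
      obtain ⟨hfixk, hden⟩ := denom_pow_fixed g z₀ hg k
      have key := denom_sq_pow_eq_one (hΘγmd γ r) (g ^ k) z₀ hfixk hinvk n hn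
      rw [hden] at key
      have key' : (denom g z₀ ^ 2) ^ (k * n) = 1 := by
        rw [← key]; ring
      exact div_gcd_dvd_of_dvd_mul he₀ ((hprim.pow_eq_one_iff_dvd _).mp key')
    obtain ⟨r, s, hs, h⟩ := hfrac' f
    have hr : r ≠ 0 := by
      rintro rfl
      have hs' : (s : ↥(FC N)) ≠ 0 := fun h0 => hs (Subtype.ext h0)
      exact (mul_ne_zero hf hs') (by rw [h]; rfl)
    obtain ⟨nr, hnr, dr⟩ := hR r hr
    obtain ⟨ns, hns, ds⟩ := hR s hs
    have v := congrArg G.val (hfracσ γ f r s h)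
    rw [AddValuation.map_mul, hnr, hns] at v
    have hfne : G.val (σ γ f) ≠ ⊤ := by
      rw [Ne, AddValuation.top_iff]
      intro h0
      exact hf (hσinj γ (h0.trans (map_zero _).symm))
    obtain ⟨m, hm⟩ := WithTop.ne_top_iff_exists.mp hfne
    rw [← hm] at v ⊢
    have v' : m + (ns : ℤ) = (nr : ℤ) := by exact_mod_cast v
    obtain ⟨qr, hqr⟩ := dr
    obtain ⟨qs, hqs⟩ := ds
    refine ⟨(qr : ℤ) - qs, ?_⟩
    congr 1
    have : m = (nr : ℤ) - ns := by linarith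
    rw [this, hqr, hqs]
    push_cast
    ring
  -- transparency
  have htransp : ∀ (γ : SL(2, ℤ)) (f : ↥(FC N)) (h : ℍ → ℂ), f ≠ 0 → Rep N h f →
      G.val (σ γ f)
        = meromorphicOrderAt ((fun z => h (γ⁻¹ • z)) ∘ ofComplex) (z₀ : ℂ) := by
    intro γ f h hf hrep
    obtain ⟨r, s, hs, hfs⟩ := hfrac' f
    -- `h * Θ s = Θ r`
    have h1 : h * Θ s = Θ r := by
      have := rep_mul hrep (hΘrep s)
      rw [hfs] at this
      exact rep_unique_left this (hΘrep r)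
    have hmd : MDiff h := rep_mdiff hrep
    have h2 : (pullHom γ h) * Θγ γ s = Θγ γ r := by
      show pullHom γ h * pullHom γ (Θ s) = pullHom γ (Θ r)
      rw [← map_mul, h1]
    have v := congrArg G.val (hfracσ γ f r s hfs)
    rw [AddValuation.map_mul, hvalR, hvalR, ← h2,
      order_mul_of_mdiff (mdiff_pullHom γ hmd) (hΘγmd γ s) z₀] at v
    have hne : meromorphicOrderAt (Θγ γ s ∘ ofComplex) (z₀ : ℂ) ≠ ⊤ := by
      rw [← hvalR]; exact hs_ne γ s hs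
    exact WithTop.add_right_cancel hne v
  exact ⟨{
    M := G.M
    val := G.val
    der := G.der
    der_add := G.der_add
    der_mul := G.der_mul
    val_der := G.val_der
    σ := σ
    val_const := by
      intro γ c hc
      rw [hconst, G.val_germ _ (MeromorphicAt.const _ _), meromorphicOrderAt_const]
      simp [hc]
    der_const := by
      intro γ c
      rw [hconst, G.der_germ _ (MeromorphicAt.const _ _)]
      have : deriv (fun _ : ℂ => c) = fun _ => 0 := by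
        funext z; simp
      rw [this]
      exact germ_zero G
    σ_const := by
      intro γ γ' c
      rw [hconst, hconst]
    σ_eq_iff := hσ_eq_iff
    σ_y := by
      intro γ γ'
      rw [hσy, hσy]
    val_y := by
      intro γ
      rw [hσy, G.val_germ _ (analyticAt_comp_ofComplex (f := fun z => jfun z - a)
        (by simpa [hΘy 1] using hΘγmd 1 yR) z₀).meromorphicAt, hord]
    val_g := hval_g
    val_dvd := hval_dvd }, htransp⟩

end main

end Fermat.Agent.H61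

end
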