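/-
P-CHEB / CH2-ABEL (helper61): generic partial summation.  If `∑_{k ≤ n} a k = c n + O(n^r)` with
`0 ≤ r < 1` and `L(a, s)` converges absolutely for real `s > 1`, then `L(a, s) - c/(s-1)` is
bounded and Lipschitz on `(1, 2]`.
-/
import Mathlib
import Fermat.Agent.H62.Cheb2.Interfaces

set_option autoImplicit false

noncomputable section

namespace Fermat.Agent.H61

open Finset MeasureTheory Filter Topology

/-- The error term `∑_{k ≤ ⌊t⌋} a k - c t`. -/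
def abelE (a : ℕ → ℂ) (c : ℂ) (t : ℝ) : ℂ := (∑ k ∈ Icc 1 ⌊t⌋₊, a k) - c * (t : ℂ)

lemma abelS_measurable (a : ℕ → ℂ) : Measurable (fun t : ℝ => ∑ k ∈ Icc 1 ⌊t⌋₊, a k) :=
  (measurable_from_nat (f := fun n : ℕ => ∑ k ∈ Icc 1 n, a k)).comp Nat.measurable_floor

lemma abelE_measurable (a : ℕ → ℂ) (c : ℂ) : Measurable (abelE a c) :=
  (abelS_measurable a).sub (measurable_const.mul Complex.measurable_ofReal)

lemma abelE_norm_le {a : ℕ → ℂ} {c : ℂ} {B r : ℝ} (hr : 0 ≤ r)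
    (hB : ∀ n : ℕ, ‖(∑ k ∈ Icc 1 n, a k) - c * (n : ℂ)‖ ≤ B * (n : ℝ) ^ r)
    {t : ℝ} (ht : 1 ≤ t) : ‖abelE a c t‖ ≤ (B + ‖c‖) * t ^ r := by
  have ht0 : 0 < t := by linarith
  have hB0 : 0 ≤ B := by simpa using (norm_nonneg _).trans (hB 1)
  have h1 : abelE a c t =
      ((∑ k ∈ Icc 1 ⌊t⌋₊, a k) - c * (⌊t⌋₊ : ℂ)) - c * ((t - ⌊t⌋₊ : ℝ) : ℂ) := by
    unfold abelE; push_cast; ring
  have hfl : (⌊t⌋₊ : ℝ) ≤ t := Nat.floor_le ht0.le
  have hfl2 : t - 1 < (⌊t⌋₊ : ℝ) := Nat.sub_one_lt_floor t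
  have h2 : ‖c * ((t - ⌊t⌋₊ : ℝ) : ℂ)‖ ≤ ‖c‖ := by
    rw [norm_mul, Complex.norm_real, Real.norm_eq_abs, abs_of_nonneg (by linarith)]
    calc ‖c‖ * (t - ⌊t⌋₊) ≤ ‖c‖ * 1 := by gcongr; linarith
      _ = ‖c‖ := mul_one _
  have h3 : (1 : ℝ) ≤ t ^ r := Real.one_le_rpow ht hr
  have h4 : ((⌊t⌋₊ : ℝ)) ^ r ≤ t ^ r := Real.rpow_le_rpow (Nat.cast_nonneg _) hfl hr
  calc ‖abelE a c t‖
      ≤ ‖(∑ k ∈ Icc 1 ⌊t⌋₊, a k) - c * (⌊t⌋₊ : ℂ)‖ + ‖c * ((t - ⌊t⌋₊ : ℝ) : ℂ)‖ := by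
        rw [h1]; exact norm_sub_le _ _
    _ ≤ B * (⌊t⌋₊ : ℝ) ^ r + ‖c‖ := add_le_add (hB _) h2
    _ ≤ B * t ^ r + ‖c‖ * t ^ r := by
        have := mul_le_mul_of_nonneg_left h4 hB0
        have := le_mul_of_one_le_right (norm_nonneg c) h3
        linarith
    _ = (B + ‖c‖) * t ^ r := by ring

/-- Weighted integrals of the error term. -/
lemma abelE_weight_bound {a : ℕ → ℂ} {c : ℂ} {B r : ℝ} (hr : 0 ≤ r)
    (hB : ∀ n : ℕ, ‖(∑ k ∈ Icc 1 n, a k) - c * (n : ℂ)‖ ≤ B * (n : ℝ) ^ r)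
    {w : ℝ → ℝ} (hw : Measurable w) {K e : ℝ} (_hK : 0 ≤ K) (he : r + e < -1)
    (hwb : ∀ t, 1 < t → |w t| ≤ K * t ^ e) :
    IntegrableOn (fun t => abelE a c t * (w t : ℂ)) (Set.Ioi 1) ∧
      ‖∫ t in Set.Ioi (1 : ℝ), abelE a c t * (w t : ℂ)‖ ≤ (B + ‖c‖) * K / (-(r + e) - 1) := by
  have hB0 : 0 ≤ B := by simpa using (norm_nonneg _).trans (hB 1)
  have hM : 0 ≤ B + ‖c‖ := add_nonneg hB0 (norm_nonneg _)
  have hint : IntegrableOn (fun t : ℝ ↦ (B + ‖c‖) * K * t ^ (r + e)) (Set.Ioi 1) :=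
    (integrableOn_Ioi_rpow_of_lt he zero_lt_one).const_mul _
  have hbound : ∀ t ∈ Set.Ioi (1 : ℝ),
      ‖abelE a c t * (w t : ℂ)‖ ≤ (B + ‖c‖) * K * t ^ (r + e) := by
    intro t ht
    have ht1 : (1 : ℝ) < t := ht
    have ht0 : (0 : ℝ) < t := by linarith
    rw [norm_mul, Complex.norm_real, Real.norm_eq_abs, Real.rpow_add ht0]
    calc ‖abelE a c t‖ * |w t| ≤ ((B + ‖c‖) * t ^ r) * (K * t ^ e) :=
          mul_le_mul (abelE_norm_le hr hB ht1.le) (hwb t ht1) (abs_nonneg _)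
            (mul_nonneg hM (Real.rpow_nonneg ht0.le _))
      _ = (B + ‖c‖) * K * (t ^ r * t ^ e) := by ring
  have hmeas : AEStronglyMeasurable (fun t => abelE a c t * (w t : ℂ))
      (volume.restrict (Set.Ioi (1 : ℝ))) :=
    ((abelE_measurable a c).mul (Complex.measurable_ofReal.comp hw)).aestronglyMeasurable
  have hae : ∀ᵐ t ∂(volume.restrict (Set.Ioi (1 : ℝ))),
      ‖abelE a c t * (w t : ℂ)‖ ≤ (B + ‖c‖) * K * t ^ (r + e) :=
    ae_restrict_of_forall_mem measurableSet_Ioi hbound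
  refine ⟨Integrable.mono' hint hmeas hae, ?_⟩
  have hI := norm_integral_le_of_norm_le hint hae
  have hval : ∫ t in Set.Ioi (1 : ℝ), (B + ‖c‖) * K * t ^ (r + e) =
      (B + ‖c‖) * K / (-(r + e) - 1) := by
    rw [integral_const_mul, integral_Ioi_rpow_of_lt he zero_lt_one, Real.one_rpow]
    have h1 : r + e + 1 ≠ 0 := by linarith
    have h2 : -(r + e) - 1 ≠ 0 := by linarith
    field_simp
    ring
  rw [hval] at hI
  exact hI

/-- `exp` is `1`-Lipschitz on the nonpositive reals. -/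
lemma abs_exp_sub_exp_le_of_nonpos {x y : ℝ} (hx : x ≤ 0) (hy : y ≤ 0) :
    |Real.exp x - Real.exp y| ≤ |x - y| := by
  wlog hxy : x ≤ y generalizing x y
  · rw [abs_sub_comm, abs_sub_comm x y]
    exact this hy hx (le_of_not_ge hxy)
  have h1 : Real.exp x ≤ Real.exp y := Real.exp_le_exp.mpr hxy
  rw [abs_of_nonpos (by linarith), abs_of_nonpos (by linarith)]
  have h2 : Real.exp y ≤ 1 := Real.exp_le_one_iff.mpr hy
  have h3 : x - y + 1 ≤ Real.exp (x - y) := Real.add_one_le_exp _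
  have h4 : Real.exp x = Real.exp y * Real.exp (x - y) := by
    rw [← Real.exp_add]; congr 1; ring
  have h5 : 0 < Real.exp y := Real.exp_pos _
  have h6 : Real.exp (x - y) ≤ 1 := Real.exp_le_one_iff.mpr (by linarith)
  nlinarith

/-- The weight `t ^ (-(s+1))` is Lipschitz in `s` with an integrable constant. -/
lemma rpow_weight_sub_le {ε : ℝ} (hε : 0 < ε) {s s' t : ℝ} (hs : 1 ≤ s) (hs' : 1 ≤ s')
    (ht : 1 < t) :
    |t ^ (-(s + 1)) - t ^ (-(s' + 1))| ≤ |s - s'| / ε * t ^ (ε - 2) := by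
  have ht0 : 0 < t := by linarith
  have hL : 0 ≤ Real.log t := Real.log_nonneg ht.le
  have hL2 : Real.log t ≤ t ^ ε / ε := Real.log_le_rpow_div ht0.le hε
  have e1 : ∀ u : ℝ, t ^ (-(u + 1)) = t ^ (-2 : ℝ) * Real.exp (-(u - 1) * Real.log t) := by
    intro u
    rw [Real.rpow_def_of_pos ht0, Real.rpow_def_of_pos ht0, ← Real.exp_add]
    congr 1; ring
  rw [e1 s, e1 s', ← mul_sub, abs_mul, abs_of_nonneg (Real.rpow_nonneg ht0.le _)]
  have h1 : |Real.exp (-(s - 1) * Real.log t) - Real.exp (-(s' - 1) * Real.log t)| ≤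
      |s - s'| * Real.log t := by
    refine (abs_exp_sub_exp_le_of_nonpos ?_ ?_).trans ?_
    · have : 0 ≤ (s - 1) * Real.log t := mul_nonneg (by linarith) hL
      linarith
    · have : 0 ≤ (s' - 1) * Real.log t := mul_nonneg (by linarith) hL
      linarith
    · have : -(s - 1) * Real.log t - -(s' - 1) * Real.log t = -((s - s') * Real.log t) := by ring
      rw [this, abs_neg, abs_mul, abs_of_nonneg hL]
  have h2 : t ^ (ε - 2) = t ^ (-2 : ℝ) * t ^ ε := by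
    rw [← Real.rpow_add ht0]; congr 1; ring
  have h3 : 0 ≤ t ^ (-2 : ℝ) := Real.rpow_nonneg ht0.le _
  calc t ^ (-2 : ℝ) * |Real.exp (-(s - 1) * Real.log t) - Real.exp (-(s' - 1) * Real.log t)|
      ≤ t ^ (-2 : ℝ) * (|s - s'| * Real.log t) := mul_le_mul_of_nonneg_left h1 h3
    _ ≤ t ^ (-2 : ℝ) * (|s - s'| * (t ^ ε / ε)) := by
        gcongr
    _ = |s - s'| / ε * t ^ (ε - 2) := by
        rw [h2]; field_simp

/-- The integral `I(s) = ∫_1^∞ E(t) t^{-(s+1)} dt`. -/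
def abelI (a : ℕ → ℂ) (c : ℂ) (s : ℝ) : ℂ :=
  ∫ t in Set.Ioi (1 : ℝ), abelE a c t * ((t ^ (-(s + 1)) : ℝ) : ℂ)

section main

variable {a : ℕ → ℂ} {c : ℂ} {B r : ℝ}

lemma abelI_facts (hr : 0 ≤ r) (hr1 : r < 1)
    (hB : ∀ n : ℕ, ‖(∑ k ∈ Icc 1 n, a k) - c * (n : ℂ)‖ ≤ B * (n : ℝ) ^ r)
    {s : ℝ} (hs : 1 ≤ s) :
    IntegrableOn (fun t => abelE a c t * ((t ^ (-(s + 1)) : ℝ) : ℂ)) (Set.Ioi 1) ∧
      ‖abelI a c s‖ ≤ (B + ‖c‖) / (1 - r) := by
  have hB0 : 0 ≤ B := by simpa using (norm_nonneg _).trans (hB 1)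
  have hM : 0 ≤ B + ‖c‖ := add_nonneg hB0 (norm_nonneg _)
  have key := abelE_weight_bound (a := a) (c := c) hr hB (w := fun t => t ^ (-(s + 1)))
    (measurable_id.pow_const _) (K := 1) (e := -(s + 1)) zero_le_one (by linarith)
    (fun t ht => by
      rw [abs_of_nonneg (Real.rpow_nonneg (by linarith) _), one_mul])
  refine ⟨key.1, key.2.trans ?_⟩
  rw [mul_one]
  exact div_le_div_of_nonneg_left hM (by linarith) (by linarith)

lemma abelI_sub_le (hr : 0 ≤ r) (hr1 : r < 1)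
    (hB : ∀ n : ℕ, ‖(∑ k ∈ Icc 1 n, a k) - c * (n : ℂ)‖ ≤ B * (n : ℝ) ^ r)
    {s s' : ℝ} (hs : 1 ≤ s) (hs' : 1 ≤ s') :
    ‖abelI a c s - abelI a c s'‖ ≤ (B + ‖c‖) * 4 / (1 - r) ^ 2 * |s - s'| := by
  have hB0 : 0 ≤ B := by simpa using (norm_nonneg _).trans (hB 1)
  have hM : 0 ≤ B + ‖c‖ := add_nonneg hB0 (norm_nonneg _)
  set ε : ℝ := (1 - r) / 2 with hε
  have hε0 : 0 < ε := by rw [hε]; linarith
  have key := abelE_weight_bound (a := a) (c := c) hr hB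
    (w := fun t => t ^ (-(s + 1)) - t ^ (-(s' + 1)))
    ((measurable_id.pow_const _).sub (measurable_id.pow_const _))
    (K := |s - s'| / ε) (e := ε - 2) (div_nonneg (abs_nonneg _) hε0.le)
    (by rw [hε]; linarith)
    (fun t ht => rpow_weight_sub_le hε0 hs hs' ht)
  have h1 := (abelI_facts hr hr1 hB hs).1
  have h2 := (abelI_facts hr hr1 hB hs').1
  have hsub : abelI a c s - abelI a c s' =
      ∫ t in Set.Ioi (1 : ℝ),
        abelE a c t * (((fun t => t ^ (-(s + 1)) - t ^ (-(s' + 1))) t : ℝ) : ℂ) := by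
    unfold abelI
    rw [← integral_sub h1 h2]
    refine integral_congr_ae (Eventually.of_forall fun t => ?_)
    simp only [Complex.ofReal_sub]
    ring
  rw [hsub]
  refine key.2.trans (le_of_eq ?_)
  have h3 : -(r + (ε - 2)) - 1 = ε := by rw [hε]; ring
  rw [h3, hε]
  have h4 : (1 - r) ≠ 0 := by linarith
  field_simp
  ring

lemma lseries_sub_eq (hr : 0 ≤ r) (hr1 : r < 1)
    (hB : ∀ n : ℕ, ‖(∑ k ∈ Icc 1 n, a k) - c * (n : ℂ)‖ ≤ B * (n : ℝ) ^ r)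
    {s : ℝ} (hs : 1 < s) (hS : LSeriesSummable a (s : ℂ)) :
    LSeries a (s : ℂ) - c / ((s : ℂ) - 1) = c + (s : ℂ) * abelI a c s := by
  have hB0 : 0 ≤ B := by simpa using (norm_nonneg _).trans (hB 1)
  have hO : (fun n : ℕ ↦ ∑ k ∈ Icc 1 n, a k) =O[atTop] fun n : ℕ ↦ (n : ℝ) ^ (1 : ℝ) := by
    refine Asymptotics.IsBigO.of_bound (B + ‖c‖) (Eventually.of_forall fun n => ?_)
    rw [Real.norm_of_nonneg (Real.rpow_nonneg (Nat.cast_nonneg n) _), Real.rpow_one]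
    rcases Nat.eq_zero_or_pos n with rfl | hn
    · simp
    have hn1 : (1 : ℝ) ≤ n := by exact_mod_cast hn
    have h1 : ‖∑ k ∈ Icc 1 n, a k‖ ≤ ‖(∑ k ∈ Icc 1 n, a k) - c * (n : ℂ)‖ + ‖c * (n : ℂ)‖ := by
      have := norm_add_le ((∑ k ∈ Icc 1 n, a k) - c * (n : ℂ)) (c * (n : ℂ))
      simpa using this
    have h2 : ‖c * (n : ℂ)‖ = ‖c‖ * n := by
      rw [norm_mul, Complex.norm_natCast]
    have h3 : (n : ℝ) ^ r ≤ n := by
      calc (n : ℝ) ^ r ≤ (n : ℝ) ^ (1 : ℝ) :=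
            Real.rpow_le_rpow_of_exponent_le hn1 hr1.le
        _ = n := Real.rpow_one _
    have h4 := mul_le_mul_of_nonneg_left h3 hB0
    have h5 := hB n
    rw [h2] at h1
    linarith
  have hsre : (1 : ℝ) < (s : ℂ).re := by simpa using hs
  have hL := LSeries_eq_mul_integral a zero_le_one hsre hS hO
  -- rewrite the integrand
  have hint1 := (abelI_facts hr hr1 hB hs.le).1
  have hint2 : IntegrableOn (fun t : ℝ => c * ((t ^ (-s) : ℝ) : ℂ)) (Set.Ioi 1) :=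
    ((integrableOn_Ioi_rpow_of_lt (by linarith : -s < -1) zero_lt_one).ofReal).const_mul c
  have hcongr : ∫ t in Set.Ioi (1 : ℝ), (∑ k ∈ Icc 1 ⌊t⌋₊, a k) * (t : ℂ) ^ (-((s : ℂ) + 1)) =
      ∫ t in Set.Ioi (1 : ℝ),
        (abelE a c t * ((t ^ (-(s + 1)) : ℝ) : ℂ) + c * ((t ^ (-s) : ℝ) : ℂ)) := by
    refine setIntegral_congr_fun measurableSet_Ioi fun t ht => ?_
    have ht1 : (1 : ℝ) < t := ht
    have ht0 : (0 : ℝ) < t := by linarith
    have e1 : (t : ℂ) ^ (-((s : ℂ) + 1)) = ((t ^ (-(s + 1)) : ℝ) : ℂ) := by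
      rw [Complex.ofReal_cpow ht0.le]; push_cast; rfl
    have e2 : (t ^ (-s) : ℝ) = t * t ^ (-(s + 1)) := by
      have : -s = 1 + -(s + 1) := by ring
      rw [this, Real.rpow_add ht0, Real.rpow_one]
    simp only [e1, e2, abelE]
    push_cast
    ring
  have hval : ∫ t in Set.Ioi (1 : ℝ), c * ((t ^ (-s) : ℝ) : ℂ) = c / ((s : ℂ) - 1) := by
    rw [integral_const_mul, integral_complex_ofReal,
      integral_Ioi_rpow_of_lt (by linarith : -s < -1) zero_lt_one, Real.one_rpow]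
    have h1 : (s : ℂ) - 1 ≠ 0 := by
      have : (s : ℝ) - 1 ≠ 0 := by linarith
      exact_mod_cast this
    have h2 : (-s + 1 : ℝ) ≠ 0 := by linarith
    push_cast
    have h3 : (-(s : ℂ) + 1) ≠ 0 := by
      exact_mod_cast h2
    field_simp
    ring
  rw [hL, hcongr, integral_add hint1 hint2, hval]
  unfold abelI
  have h1 : (s : ℂ) - 1 ≠ 0 := by
    have : (s : ℝ) - 1 ≠ 0 := by linarith
    exact_mod_cast this
  field_simp
  ring

end main

/-- **CH2-ABEL.** -/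
theorem abelBounded : Fermat.Agent.H62.Cheb2.AbelBoundedStatement := by
  intro a c B r hr hr1 hB hS
  have hB0 : 0 ≤ B := by simpa using (norm_nonneg _).trans (hB 1)
  have hM : 0 ≤ B + ‖c‖ := add_nonneg hB0 (norm_nonneg _)
  have h1r : 0 < 1 - r := by linarith
  set M1 : ℝ := (B + ‖c‖) / (1 - r) with hM1
  set M2 : ℝ := (B + ‖c‖) * 4 / (1 - r) ^ 2 with hM2
  have hM1' : 0 ≤ M1 := div_nonneg hM h1r.le
  have hM2' : 0 ≤ M2 := div_nonneg (mul_nonneg hM (by norm_num)) (sq_nonneg _)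
  refine ⟨‖c‖ + 2 * M1 + (M1 + 2 * M2), ?_, ?_⟩
  · intro s hs hs2
    rw [lseries_sub_eq hr hr1 hB hs (hS s hs)]
    have h1 := (abelI_facts (a := a) (c := c) hr hr1 hB hs.le).2
    have h2 : ‖(s : ℂ)‖ = s := by
      rw [Complex.norm_real, Real.norm_of_nonneg (by linarith)]
    calc ‖c + (s : ℂ) * abelI a c s‖ ≤ ‖c‖ + ‖(s : ℂ) * abelI a c s‖ := norm_add_le _ _
      _ = ‖c‖ + s * ‖abelI a c s‖ := by rw [norm_mul, h2]
      _ ≤ ‖c‖ + 2 * M1 := by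
          have := mul_le_mul hs2 h1 (norm_nonneg _) (by norm_num : (0 : ℝ) ≤ 2)
          linarith
      _ ≤ ‖c‖ + 2 * M1 + (M1 + 2 * M2) := by linarith
  · intro s s' hs hs2 hs' hs2'
    rw [lseries_sub_eq hr hr1 hB hs (hS s hs), lseries_sub_eq hr hr1 hB hs' (hS s' hs')]
    have h1 := (abelI_facts (a := a) (c := c) hr hr1 hB hs.le).2
    have h3 := abelI_sub_le (a := a) (c := c) hr hr1 hB hs.le hs'.le
    have e : (c + (s : ℂ) * abelI a c s) - (c + (s' : ℂ) * abelI a c s') =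
        ((s - s' : ℝ) : ℂ) * abelI a c s + (s' : ℂ) * (abelI a c s - abelI a c s') := by
      push_cast; ring
    have h2 : ‖(s' : ℂ)‖ = s' := by
      rw [Complex.norm_real, Real.norm_of_nonneg (by linarith)]
    have habs : 0 ≤ |s - s'| := abs_nonneg _
    rw [e]
    calc ‖((s - s' : ℝ) : ℂ) * abelI a c s + (s' : ℂ) * (abelI a c s - abelI a c s')‖
        ≤ ‖((s - s' : ℝ) : ℂ) * abelI a c s‖ + ‖(s' : ℂ) * (abelI a c s - abelI a c s')‖ :=
          norm_add_le _ _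
      _ = |s - s'| * ‖abelI a c s‖ + s' * ‖abelI a c s - abelI a c s'‖ := by
          rw [norm_mul, norm_mul, h2, Complex.norm_real, Real.norm_eq_abs]
      _ ≤ |s - s'| * M1 + 2 * (M2 * |s - s'|) := by
          have a1 := mul_le_mul_of_nonneg_left h1 habs
          have a2 := mul_le_mul hs2' h3 (norm_nonneg _) (by norm_num : (0 : ℝ) ≤ 2)
          linarith
      _ ≤ (‖c‖ + 2 * M1 + (M1 + 2 * M2)) * |s - s'| := by
          have : 0 ≤ (‖c‖ + 2 * M1) * |s - s'| :=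
            mul_nonneg (add_nonneg (norm_nonneg _) (by linarith)) habs
          nlinarith

end Fermat.Agent.H61
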