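/-
P-ES / ES-A / PL-2 (helper61), part 3: `PointDatumStatement N` from `CoreCStatement N` and
`RsubRepStatement N` (transparent coset datum at a base point over every `a ∈ ℂ`).
-/
import Fermat.Agent.H23.EsA.Lemmas
import Fermat.Agent.H61.ESPoint2
import Fermat.Agent.H33.MerGerm
import Fermat.Agent.H48.JFacts
import Fermat.Agent.H82.Separation

set_option autoImplicit false

noncomputable section

open UpperHalfPlane Filter Topology
open scoped MatrixGroups Manifold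

namespace Fermat.Agent.H61

open Fermat.Agent.H23 Fermat.Agent.H23.EsA Fermat.Agent.H44

/-- **[PL-2]** transparent coset datum at a base point over every `a ∈ ℂ`, from [CORE-C] and
[REP]. -/
theorem pointDatum (N : ℕ) [NeZero N] (hC : CoreCStatement N) (hR : RsubRepStatement N) :
    PointDatumStatement N := by
  intro a
  obtain ⟨hCJ, hfrac⟩ := hC
  obtain ⟨Θ, hΘ⟩ := exists_theta hR
  have hΘJ : ∀ (d : ℕ) (_ : NeZero d) (hd : d ∣ N) (h : jC N d hd ∈ RsubC N),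
      Θ ⟨jC N d hd, h⟩ = fun z => jfun (scaleH d z) :=
    fun d hd0 hd h => rep_unique_left (hΘ _) (hCJ d hd0 hd)
  have hinvΘ : ∀ (r : ↥(RsubC N)) (β : SL(2, ℤ)), β ∈ CongruenceSubgroup.Gamma0 N →
      ∀ z : ℍ, Θ r (β • z) = Θ r z := by
    intro r β hβ z
    obtain ⟨h, hh, -, hinv, -⟩ := hR (r : ↥(FC N)) r.2
    have e : Θ r = h := rep_unique_left (hΘ r) hh
    rw [e]
    exact hinv β hβ z
  obtain ⟨hjinv, -, hjsurj, hjgen, ⟨zi, hSi, hji, hoi⟩, ⟨zρ, hSTρ, hjρ, hoρ⟩⟩ :=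
    Fermat.Agent.H48.jFacts
  obtain ⟨hsep1, -⟩ := Fermat.Agent.H82.separation N
  by_cases ha0 : a = 0
  · subst ha0
    obtain ⟨G⟩ := Fermat.Agent.H33.merGerm_statement (zρ : ℂ)
    have hord : meromorphicOrderAt ((fun z => jfun z - (0 : ℂ)) ∘ ofComplex) (zρ : ℂ)
        = ((3 : ℕ) : ℤ) := by
      have e : ((fun z => jfun z - (0 : ℂ)) ∘ ofComplex) = jfun ∘ ofComplex := by
        funext z; simp
      rw [e, hoρ]; rfl
    obtain ⟨A, hA⟩ := cosetDatum_of_point Θ hΘ hΘJ hinvΘ hfrac hjinv hsep1 zρ G 0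
      (ModularGroup.S * ModularGroup.T) 3 hSTρ (by norm_num) hord
      (isPrimitiveRoot_denom_ST zρ hSTρ)
    exact ⟨zρ, ModularGroup.S * ModularGroup.T, 3, A, by norm_num, hjρ, hSTρ,
      isPrimitiveRoot_denom_ST zρ hSTρ, hA⟩
  by_cases ha1 : a = 1728
  · subst ha1
    obtain ⟨G⟩ := Fermat.Agent.H33.merGerm_statement (zi : ℂ)
    have hord : meromorphicOrderAt ((fun z => jfun z - (1728 : ℂ)) ∘ ofComplex) (zi : ℂ)
        = ((2 : ℕ) : ℤ) := by
      rw [hoi]; rfl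
    obtain ⟨A, hA⟩ := cosetDatum_of_point Θ hΘ hΘJ hinvΘ hfrac hjinv hsep1 zi G 1728
      ModularGroup.S 2 hSi (by norm_num) hord (isPrimitiveRoot_denom_S zi hSi)
    exact ⟨zi, ModularGroup.S, 2, A, by norm_num, hji, hSi,
      isPrimitiveRoot_denom_S zi hSi, hA⟩
  · obtain ⟨z₀, hz₀⟩ := hjsurj a
    obtain ⟨G⟩ := Fermat.Agent.H33.merGerm_statement (z₀ : ℂ)
    have h0 : jfun z₀ ≠ 0 := by rw [hz₀]; exact ha0
    have h1 : jfun z₀ ≠ 1728 := by rw [hz₀]; exact ha1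
    have hord := hjgen z₀ h0 h1
    rw [hz₀] at hord
    have hprim : IsPrimitiveRoot (denom ((1 : SL(2, ℤ)) : GL (Fin 2) ℝ) z₀ ^ 2) 1 := by
      have : denom ((1 : SL(2, ℤ)) : GL (Fin 2) ℝ) z₀ = 1 := by simp
      rw [this, one_pow]
      exact IsPrimitiveRoot.one
    obtain ⟨A, hA⟩ := cosetDatum_of_point Θ hΘ hΘJ hinvΘ hfrac hjinv hsep1 z₀ G a 1 1
      (one_smul _ _) one_pos (by rw [hord]; rfl) hprim
    exact ⟨z₀, 1, 1, A, one_pos, hz₀, one_smul _ _, hprim, hA⟩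

end Fermat.Agent.H61

end
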