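/-
P-ES / ES-A / PL-2 (helper61), part 4: `PointDatumStatement N`, unconditionally
(with the landed [CORE-C] and [REP] of helper13).
-/
import Fermat.Agent.H61.ESPoint3
import Fermat.Agent.H13.EsACoreC

set_option autoImplicit false

namespace Fermat.Agent.H61

/-- **[PL-2]**, unconditional. -/
theorem pointDatumStatement (N : ℕ) [NeZero N] : Fermat.Agent.H23.EsA.PointDatumStatement N :=
  pointDatum N (Fermat.Agent.H13.esaCoreC N) (Fermat.Agent.H13.esaRsubRep N)

end Fermat.Agent.H61
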