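/-
helper61 (P-ES, analytic side): m-th roots of meromorphic functions, part 1:
codiscrete-filter helpers and UNIQUENESS of roots up to a root of unity.
-/
import Mathlib

set_option autoImplicit false

open Complex Metric Set Filter Topology

namespace Fermat.Agent.H61

/-- For an open set `U`, membership in `codiscreteWithin U` is membership in all punctured
neighbourhood filters at points of `U`. -/
theorem mem_codiscreteWithin_open_iff {U S : Set ℂ} (hU : IsOpen U) :
    S ∈ codiscreteWithin U ↔ ∀ z ∈ U, S ∈ 𝓝[≠] z := by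
  rw [mem_codiscreteWithin_iff_forall_mem_nhdsNE]
  refine forall₂_congr fun z hz => ?_
  have hUz : U ∈ 𝓝[≠] z := mem_nhdsWithin_of_mem_nhds (hU.mem_nhds hz)
  constructor
  · intro h
    filter_upwards [h, hUz] with y hy hyU
    rcases hy with hy | hy
    · exact hy
    · exact absurd hyU hy
  · intro h
    filter_upwards [h] with y hy using Or.inl hy

theorem eventually_nhdsNE_of_codiscreteWithin {U : Set ℂ} (hU : IsOpen U) {p : ℂ → Prop}
    (h : ∀ᶠ y in codiscreteWithin U, p y) {z : ℂ} (hz : z ∈ U) : ∀ᶠ y in 𝓝[≠] z, p y :=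
  (mem_codiscreteWithin_open_iff hU).1 h z hz

theorem eventually_codiscreteWithin_of_forall_nhdsNE {U : Set ℂ} (hU : IsOpen U) {p : ℂ → Prop}
    (h : ∀ z ∈ U, ∀ᶠ y in 𝓝[≠] z, p y) : ∀ᶠ y in codiscreteWithin U, p y :=
  (mem_codiscreteWithin_open_iff hU).2 h

/-- Two functions in normal form on an open set which agree on a codiscrete subset agree
everywhere. -/
theorem eqOn_of_meromorphicNFOn_of_codiscrete {U : Set ℂ} (hU : IsOpen U) {g₁ g₂ : ℂ → ℂ}
    (h₁ : MeromorphicNFOn g₁ U) (h₂ : MeromorphicNFOn g₂ U)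
    (h : g₁ =ᶠ[codiscreteWithin U] g₂) : EqOn g₁ g₂ U := by
  intro z hz
  have hne : g₁ =ᶠ[𝓝[≠] z] g₂ := eventually_nhdsNE_of_codiscreteWithin hU h hz
  exact ((h₁ hz).eventuallyEq_nhdsNE_iff_eventuallyEq_nhds (h₂ hz)).1 hne |>.self_of_nhds

/-- A meromorphic function in normal form whose `m`-th power is `1` on a codiscrete subset of a
connected open set is a constant root of unity. -/
theorem exists_const_of_pow_eq_one {m : ℕ} (hm : m ≠ 0) {U : Set ℂ} (hU : IsOpen U)
    (hc : IsPreconnected U) (hne : U.Nonempty) {q : ℂ → ℂ} (hq : MeromorphicNFOn q U)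
    (h : ∀ᶠ y in codiscreteWithin U, q y ^ m = 1) :
    ∃ ζ : ℂ, ζ ^ m = 1 ∧ ∀ z ∈ U, q z = ζ := by
  -- pointwise information
  have key : ∀ z ∈ U, AnalyticAt ℂ q z ∧ q z ^ m = 1 := by
    intro z hz
    have hne' : (q ^ m) =ᶠ[𝓝[≠] z] (fun _ => (1 : ℂ)) := by
      have := eventually_nhdsNE_of_codiscreteWithin hU h hz
      filter_upwards [this] with y hy
      simpa using hy
    have hord : meromorphicOrderAt (q ^ m) z = 0 := by
      rw [meromorphicOrderAt_congr hne', meromorphicOrderAt_const]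
      simp
    rw [meromorphicOrderAt_pow (hq hz).meromorphicAt] at hord
    have hord0 : meromorphicOrderAt q z = 0 := by
      by_cases htop : meromorphicOrderAt q z = ⊤
      · rw [htop, WithTop.mul_top (by exact_mod_cast hm)] at hord
        exact absurd hord WithTop.top_ne_zero
      · lift meromorphicOrderAt q z to ℤ using htop with k hk
        have h2 : (((m : ℤ) * k : ℤ) : WithTop ℤ) = 0 := by
          push_cast
          exact hord
        have h3 : (m : ℤ) * k = 0 := by exact_mod_cast h2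
        have hk0 : k = 0 := by
          rcases mul_eq_zero.1 h3 with h4 | h4
          · exact absurd (by exact_mod_cast h4) hm
          · exact h4
        rw [hk0]
        rfl
    have han : AnalyticAt ℂ q z :=
      (hq hz).meromorphicOrderAt_nonneg_iff_analyticAt.1 (by rw [hord0])
    refine ⟨han, ?_⟩
    have hcont : ContinuousAt (fun y => q y ^ m) z := (han.continuousAt).pow m
    -- limit argument
    have h1 : Tendsto (fun y => q y ^ m) (𝓝[≠] z) (𝓝 (q z ^ m)) :=
      hcont.tendsto.mono_left nhdsWithin_le_nhds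
    have h2 : Tendsto (fun y => q y ^ m) (𝓝[≠] z) (𝓝 1) := by
      refine (tendsto_const_nhds (x := (1 : ℂ))).congr' ?_
      filter_upwards [hne'] with y hy
      simpa using hy.symm
    exact tendsto_nhds_unique h1 h2
  have hdiff : DifferentiableOn ℂ q U := fun z hz =>
    (key z hz).1.differentiableAt.differentiableWithinAt
  have hderiv : EqOn (deriv q) 0 U := by
    intro z hz
    have hqz : q z ≠ 0 := by
      intro h0
      have := (key z hz).2
      rw [h0, zero_pow hm] at this
      exact zero_ne_one this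
    have hd : HasDerivAt (fun y => q y ^ m) ((m : ℂ) * q z ^ (m - 1) * deriv q z) z :=
      ((key z hz).1.differentiableAt.hasDerivAt).pow m
    have hd0 : HasDerivAt (fun y => q y ^ m) 0 z := by
      have : (fun y => q y ^ m) =ᶠ[𝓝 z] fun _ => (1 : ℂ) := by
        filter_upwards [hU.mem_nhds hz] with y hy using (key y hy).2
      exact (hasDerivAt_const z (1 : ℂ)).congr_of_eventuallyEq this
    have := hd.unique hd0
    have hm' : (m : ℂ) ≠ 0 := by exact_mod_cast hm
    have hp : q z ^ (m - 1) ≠ 0 := pow_ne_zero _ hqz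
    simpa [hm', hp] using this
  obtain ⟨z₀, hz₀⟩ := hne
  refine ⟨q z₀, (key z₀ hz₀).2, fun z hz => ?_⟩
  exact hU.is_const_of_deriv_eq_zero hc hdiff hderiv hz hz₀

/-- A function in normal form with finite orders is non-zero on a codiscrete set. -/
theorem eventually_ne_zero_of_meromorphicNFOn {U : Set ℂ} {g : ℂ → ℂ}
    (hg : MeromorphicNFOn g U) (hfin : ∀ z ∈ U, meromorphicOrderAt g z ≠ ⊤) :
    ∀ᶠ y in codiscreteWithin U, g y ≠ 0 := by
  have h1 := hg.zero_set_eq_divisor_support (fun u => hfin u.1 u.2)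
  filter_upwards [(MeromorphicOn.divisor g U).eq_zero_codiscreteWithin,
    self_mem_codiscreteWithin U] with y hy hyU
  intro h0
  have : y ∈ U ∩ g ⁻¹' {0} := ⟨hyU, by simpa using h0⟩
  rw [h1] at this
  exact this (by simpa using hy)

/-- UNIQUENESS of `m`-th roots: two meromorphic functions in normal form on a connected open set
whose `m`-th powers agree on a codiscrete subset differ by a constant `m`-th root of unity. -/
theorem exists_root_of_unity_of_pow_eq {m : ℕ} (hm : m ≠ 0) {U : Set ℂ} (hU : IsOpen U)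
    (hc : IsPreconnected U) (hne : U.Nonempty) {g₁ g₂ : ℂ → ℂ}
    (h₁ : MeromorphicNFOn g₁ U) (h₂ : MeromorphicNFOn g₂ U)
    (hfin : ∀ z ∈ U, meromorphicOrderAt g₂ z ≠ ⊤)
    (h : ∀ᶠ y in codiscreteWithin U, g₁ y ^ m = g₂ y ^ m) :
    ∃ ζ : ℂ, ζ ^ m = 1 ∧ ∀ z ∈ U, g₁ z = ζ * g₂ z := by
  have hmer : MeromorphicOn (g₁ * g₂⁻¹) U := h₁.meromorphicOn.mul h₂.meromorphicOn.inv
  set q := toMeromorphicNFOn (g₁ * g₂⁻¹) U with hqdef
  have hq : MeromorphicNFOn q U := meromorphicNFOn_toMeromorphicNFOn _ _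
  have hqeq : (g₁ * g₂⁻¹) =ᶠ[codiscreteWithin U] q := toMeromorphicNFOn_eqOn_codiscrete hmer
  have hnz := eventually_ne_zero_of_meromorphicNFOn h₂ hfin
  have hqpow : ∀ᶠ y in codiscreteWithin U, q y ^ m = 1 := by
    filter_upwards [hqeq, hnz, h] with y hy1 hy2 hy3
    rw [← hy1]
    simp only [Pi.mul_apply, Pi.inv_apply]
    rw [mul_pow, inv_pow, hy3, mul_inv_cancel₀ (pow_ne_zero _ hy2)]
  obtain ⟨ζ, hζ, hqζ⟩ := exists_const_of_pow_eq_one hm hU hc hne hq hqpow
  refine ⟨ζ, hζ, ?_⟩
  have hζ0 : ζ ≠ 0 := by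
    rintro rfl
    rw [zero_pow hm] at hζ
    exact zero_ne_one hζ
  have hNF : MeromorphicNFOn ((fun _ => ζ) * g₂) U := fun z hz =>
    (meromorphicNFAt_mul_iff_right (analyticAt_const) hζ0).2 (h₂ hz)
  have hEq : g₁ =ᶠ[codiscreteWithin U] ((fun _ => ζ) * g₂) := by
    filter_upwards [hqeq, hnz, self_mem_codiscreteWithin U] with y hy1 hy2 hyU
    have := hqζ y hyU
    rw [← hy1] at this
    simp only [Pi.mul_apply, Pi.inv_apply] at this ⊢
    rw [← this, mul_assoc, inv_mul_cancel₀ hy2, mul_one]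
  intro z hz
  have := eqOn_of_meromorphicNFOn_of_codiscrete hU h₁ hNF hEq hz
  simpa using this

end Fermat.Agent.H61
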