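/-
helper61 (P-ES, analytic side): m-th roots of meromorphic functions, part 2:
EXISTENCE of an m-th root on a ball (finitely many zeros and poles).
-/
import Fermat.Agent.H61.ESRoot1

set_option autoImplicit false

open Complex Metric Set Filter Topology

namespace Fermat.Agent.H61

/-- A non-vanishing holomorphic function on a ball has a holomorphic `m`-th root. -/
theorem exists_analytic_root_on_ball {m : ℕ} (hm : m ≠ 0) {h : ℂ → ℂ} {c : ℂ} {R : ℝ}
    (hR : 0 < R) (hh : DifferentiableOn ℂ h (ball c R)) (hne : ∀ z ∈ ball c R, h z ≠ 0) :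
    ∃ r : ℂ → ℂ, DifferentiableOn ℂ r (ball c R) ∧ ∀ z ∈ ball c R, r z ^ m = h z := by
  have hopen : IsOpen (ball c R) := isOpen_ball
  have hdh : DifferentiableOn ℂ (deriv h) (ball c R) := hh.deriv hopen
  have hquot : DifferentiableOn ℂ (fun z => deriv h z / h z) (ball c R) :=
    hdh.div hh hne
  obtain ⟨L, hL⟩ := hquot.isExactOn_ball
  -- `h * exp (-L)` is constant
  set φ : ℂ → ℂ := fun z => h z * Complex.exp (-L z) with hφ
  have hφd : ∀ z ∈ ball c R, HasDerivAt φ 0 z := by
    intro z hz
    have h1 : HasDerivAt h (deriv h z) z :=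
      (hh.differentiableAt (hopen.mem_nhds hz)).hasDerivAt
    have h2 : HasDerivAt (fun z => Complex.exp (-L z))
        (Complex.exp (-L z) * (-(deriv h z / h z))) z := (hL z hz).neg.cexp
    have h3 := h1.mul h2
    have : deriv h z * Complex.exp (-L z) +
        h z * (Complex.exp (-L z) * (-(deriv h z / h z))) = 0 := by
      field_simp [hne z hz]
      ring
    rw [this] at h3
    exact h3
  have hconst : ∀ z ∈ ball c R, φ z = φ c := by
    intro z hz
    refine hopen.is_const_of_deriv_eq_zero (convex_ball c R).isPreconnected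
      (fun w hw => (hφd w hw).differentiableAt.differentiableWithinAt)
      (fun w hw => (hφd w hw).deriv) hz (mem_ball_self hR)
  have hC : φ c ≠ 0 := mul_ne_zero (hne c (mem_ball_self hR)) (Complex.exp_ne_zero _)
  set c₀ := Complex.log (φ c) with hc₀
  have hexp : Complex.exp c₀ = φ c := Complex.exp_log hC
  have hm' : (m : ℂ) ≠ 0 := by exact_mod_cast hm
  refine ⟨fun z => Complex.exp ((L z + c₀) / m), ?_, ?_⟩
  · intro z hz
    have : HasDerivAt (fun z => Complex.exp ((L z + c₀) / m))
        (Complex.exp ((L z + c₀) / m) * ((deriv h z / h z) / m)) z :=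
      (((hL z hz).add_const c₀).div_const (m : ℂ)).cexp
    exact this.differentiableAt.differentiableWithinAt
  · intro z hz
    rw [← Complex.exp_nat_mul, mul_div_cancel₀ _ hm', Complex.exp_add, hexp, ← hconst z hz]
    simp only [hφ]
    rw [mul_comm (h z), ← mul_assoc, ← Complex.exp_add]
    simp

/-- EXISTENCE on a ball: a meromorphic function on a closed ball, nowhere locally zero, all of whose
orders are divisible by `m`, has a meromorphic `m`-th root on the open ball. -/
theorem exists_root_on_ball {m : ℕ} (hm : m ≠ 0) {f : ℂ → ℂ} {c : ℂ} {R : ℝ} (hR : 0 < R)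
    (hf : MeromorphicOn f (closedBall c R))
    (hfin : ∀ z ∈ closedBall c R, meromorphicOrderAt f z ≠ ⊤)
    (hdiv : ∀ z ∈ closedBall c R, (m : ℤ) ∣ (meromorphicOrderAt f z).untop₀) :
    ∃ g : ℂ → ℂ, MeromorphicNFOn g (ball c R) ∧
      ∀ᶠ y in codiscreteWithin (ball c R), g y ^ m = f y := by
  set K := closedBall c R with hK
  set D := MeromorphicOn.divisor f K with hD
  have hDfin : D.support.Finite := D.finiteSupport (isCompact_closedBall c R)
  obtain ⟨h, hh_an, hh_ne, hh_eq⟩ := hf.extract_zeros_poles (fun u => hfin u.1 u.2) hDfin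
  have hsub : ball c R ⊆ K := ball_subset_closedBall
  obtain ⟨r, hr_diff, hr_pow⟩ := exists_analytic_root_on_ball hm hR
    (fun z hz => (hh_an z (hsub hz)).differentiableAt.differentiableWithinAt)
    (fun z hz => hh_ne ⟨z, hsub hz⟩)
  have hr_an : AnalyticOnNhd ℂ r (ball c R) := hr_diff.analyticOnNhd isOpen_ball
  -- divisibility of all values of `D`
  have hDdvd : ∀ u, (m : ℤ) ∣ D u := by
    intro u
    by_cases hu : u ∈ K
    · rw [hD, MeromorphicOn.divisor_apply hf hu]
      exact hdiv u hu
    · have : D u = 0 := by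
        by_contra h0
        exact hu (D.supportWithinDomain (by simpa using h0))
      rw [this]
      exact dvd_zero _
  set P : ℂ → ℂ := ∏ᶠ u, (fun x => x - u) ^ (D u / m) with hP
  have hPNF : MeromorphicNFOn P (ball c R) :=
    Function.FactorizedRational.meromorphicNFOn (fun u => D u / m) (ball c R)
  have hfinsupp : Function.HasFiniteMulSupport (fun u : ℂ => (fun x : ℂ => x - u) ^ (D u / m)) := by
    refine hDfin.subset ?_
    intro u hu
    simp only [Function.mem_mulSupport] at hu
    simp only [Function.mem_support]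
    intro h0
    apply hu
    rw [h0]
    simp
  have hPpow : P ^ m = ∏ᶠ u, (fun x => x - u) ^ (D u) := by
    rw [hP, finprod_pow hfinsupp]
    congr 1
    funext u
    obtain ⟨k, hk⟩ := hDdvd u
    have hm' : (m : ℤ) ≠ 0 := by exact_mod_cast hm
    rw [hk, Int.mul_ediv_cancel_left _ hm', ← zpow_natCast, ← zpow_mul, mul_comm]
  set g₀ : ℂ → ℂ := P * r with hg₀
  have hg₀mer : MeromorphicOn g₀ (ball c R) :=
    hPNF.meromorphicOn.mul (fun z hz => (hr_an z hz).meromorphicAt)
  refine ⟨toMeromorphicNFOn g₀ (ball c R), meromorphicNFOn_toMeromorphicNFOn _ _, ?_⟩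
  have h1 := toMeromorphicNFOn_eqOn_codiscrete hg₀mer
  have h2 : f =ᶠ[codiscreteWithin (ball c R)] (∏ᶠ u, (fun x => x - u) ^ (D u)) • h :=
    codiscreteWithin_mono hsub hh_eq
  filter_upwards [h1, h2, self_mem_codiscreteWithin (ball c R)] with y hy1 hy2 hyB
  rw [← hy1, hy2, hg₀]
  simp only [Pi.mul_apply, Pi.smul_apply', smul_eq_mul]
  rw [mul_pow, hr_pow y hyB, ← hPpow]
  simp

end Fermat.Agent.H61
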