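/-
helper61 (P-ES, analytic side): m-th roots of meromorphic functions, part 3:
gluing along an exhaustion by balls; the upper half plane.
-/
import Fermat.Agent.H61.ESRoot2

set_option autoImplicit false

open Complex Metric Set Filter Topology

namespace Fermat.Agent.H61

/-- If `g ^ m = f` on a codiscrete subset of an open set then `m * ord g = ord f`. -/
theorem meromorphicOrderAt_root {m : ℕ} {U : Set ℂ} (hU : IsOpen U) {f g : ℂ → ℂ}
    (hg : MeromorphicOn g U) (h : ∀ᶠ y in codiscreteWithin U, g y ^ m = f y) {z : ℂ} (hz : z ∈ U) :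
    (m : WithTop ℤ) * meromorphicOrderAt g z = meromorphicOrderAt f z := by
  have h1 : (g ^ m) =ᶠ[𝓝[≠] z] f := by
    filter_upwards [eventually_nhdsNE_of_codiscreteWithin hU h hz] with y hy
    simpa using hy
  rw [← meromorphicOrderAt_congr h1, meromorphicOrderAt_pow (hg z hz)]

theorem meromorphicOrderAt_root_ne_top {m : ℕ} (hm : m ≠ 0) {U : Set ℂ} (hU : IsOpen U)
    {f g : ℂ → ℂ} (hg : MeromorphicOn g U) (h : ∀ᶠ y in codiscreteWithin U, g y ^ m = f y)
    {z : ℂ} (hz : z ∈ U) (hf : meromorphicOrderAt f z ≠ ⊤) : meromorphicOrderAt g z ≠ ⊤ := by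
  intro htop
  have := meromorphicOrderAt_root hU hg h hz
  rw [htop, WithTop.mul_top (by exact_mod_cast hm)] at this
  exact hf this.symm

section Glue

variable {m : ℕ} {f : ℂ → ℂ} (c : ℕ → ℂ) (R : ℕ → ℝ)

/-- The property carried along the exhaustion. -/
def RootOn (m : ℕ) (f : ℂ → ℂ) (c : ℕ → ℂ) (R : ℕ → ℝ) (n : ℕ) (G : ℂ → ℂ) : Prop :=
  MeromorphicNFOn G (ball (c n) (R n)) ∧
    ∀ᶠ y in codiscreteWithin (ball (c n) (R n)), G y ^ m = f y

theorem rootOn_step (hm : m ≠ 0) {U : Set ℂ} (hR : ∀ n, 0 < R n)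
    (hsub : ∀ n, closedBall (c n) (R n) ⊆ U)
    (hmono : ∀ n, ball (c n) (R n) ⊆ ball (c (n + 1)) (R (n + 1)))
    (hf : MeromorphicOn f U) (hfin : ∀ z ∈ U, meromorphicOrderAt f z ≠ ⊤)
    (hdiv : ∀ z ∈ U, (m : ℤ) ∣ (meromorphicOrderAt f z).untop₀)
    (n : ℕ) (G : ℂ → ℂ) (hG : RootOn m f c R n G) :
    ∃ G' : ℂ → ℂ, RootOn m f c R (n + 1) G' ∧ EqOn G' G (ball (c n) (R n)) := by
  obtain ⟨g', hg'NF, hg'pow⟩ := exists_root_on_ball hm (hR (n + 1))
    (hf.mono_set (hsub (n + 1))) (fun z hz => hfin z (hsub (n + 1) hz))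
    (fun z hz => hdiv z (hsub (n + 1) hz))
  have hBn : IsOpen (ball (c n) (R n)) := isOpen_ball
  have hg'NFn : MeromorphicNFOn g' (ball (c n) (R n)) := fun z hz => hg'NF (hmono n hz)
  have hg'pown : ∀ᶠ y in codiscreteWithin (ball (c n) (R n)), g' y ^ m = f y :=
    codiscreteWithin_mono (hmono n) hg'pow
  have hGfin : ∀ z ∈ ball (c n) (R n), meromorphicOrderAt G z ≠ ⊤ := fun z hz =>
    meromorphicOrderAt_root_ne_top hm hBn hG.1.meromorphicOn hG.2 hz
      (hfin z (hsub n (ball_subset_closedBall hz)))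
  have hpp : ∀ᶠ y in codiscreteWithin (ball (c n) (R n)), g' y ^ m = G y ^ m := by
    filter_upwards [hg'pown, hG.2] with y h1 h2
    rw [h1, h2]
  obtain ⟨ζ, hζ, hEq⟩ := exists_root_of_unity_of_pow_eq hm hBn
    (convex_ball (c n) (R n)).isPreconnected ⟨c n, mem_ball_self (hR n)⟩ hg'NFn hG.1 hGfin hpp
  have hζ0 : ζ ≠ 0 := by
    rintro rfl
    rw [zero_pow hm] at hζ
    exact zero_ne_one hζ
  refine ⟨(fun _ => ζ⁻¹) * g', ⟨?_, ?_⟩, ?_⟩
  · intro z hz
    exact (meromorphicNFAt_mul_iff_right analyticAt_const (inv_ne_zero hζ0)).2 (hg'NF hz)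
  · filter_upwards [hg'pow] with y hy
    simp only [Pi.mul_apply]
    rw [mul_pow, inv_pow, hζ, hy]
    simp
  · intro z hz
    simp only [Pi.mul_apply]
    rw [hEq z hz, ← mul_assoc, inv_mul_cancel₀ hζ0, one_mul]

/-- EXISTENCE of `m`-th roots on a set exhausted by balls. -/
theorem exists_root_of_ball_exhaustion (hm : m ≠ 0) {U : Set ℂ} (hR : ∀ n, 0 < R n)
    (hsub : ∀ n, closedBall (c n) (R n) ⊆ U)
    (hmono : ∀ n, ball (c n) (R n) ⊆ ball (c (n + 1)) (R (n + 1)))
    (hcover : ∀ z ∈ U, ∃ n, z ∈ ball (c n) (R n))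
    (hf : MeromorphicOn f U) (hfin : ∀ z ∈ U, meromorphicOrderAt f z ≠ ⊤)
    (hdiv : ∀ z ∈ U, (m : ℤ) ∣ (meromorphicOrderAt f z).untop₀) :
    ∃ g : ℂ → ℂ, MeromorphicNFOn g U ∧ ∀ᶠ y in codiscreteWithin U, g y ^ m = f y := by
  classical
  have hUopen : IsOpen U := by
    have : U = ⋃ n, ball (c n) (R n) := by
      ext z
      constructor
      · intro hz
        obtain ⟨n, hn⟩ := hcover z hz
        exact mem_iUnion.2 ⟨n, hn⟩
      · intro hz
        obtain ⟨n, hn⟩ := mem_iUnion.1 hz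
        exact hsub n (ball_subset_closedBall hn)
    rw [this]
    exact isOpen_iUnion fun n => isOpen_ball
  -- base
  obtain ⟨g0, hg0NF, hg0pow⟩ := exists_root_on_ball hm (hR 0)
    (hf.mono_set (hsub 0)) (fun z hz => hfin z (hsub 0 hz)) (fun z hz => hdiv z (hsub 0 hz))
  have hbase : RootOn m f c R 0 g0 := ⟨hg0NF, hg0pow⟩
  -- the sequence
  let seq : ∀ n : ℕ, {G : ℂ → ℂ // RootOn m f c R n G} := fun n =>
    Nat.rec (motive := fun n => {G : ℂ → ℂ // RootOn m f c R n G}) ⟨g0, hbase⟩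
      (fun n G => ⟨Classical.choose (rootOn_step c R hm hR hsub hmono hf hfin hdiv n G.1 G.2),
        (Classical.choose_spec (rootOn_step c R hm hR hsub hmono hf hfin hdiv n G.1 G.2)).1⟩) n
  have hseq_succ : ∀ n, EqOn (seq (n + 1)).1 (seq n).1 (ball (c n) (R n)) := fun n =>
    (Classical.choose_spec (rootOn_step c R hm hR hsub hmono hf hfin hdiv n (seq n).1 (seq n).2)).2
  have hball_mono : ∀ n k, ball (c n) (R n) ⊆ ball (c (n + k)) (R (n + k)) := by
    intro n k
    induction k with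
    | zero => exact subset_rfl
    | succ k ih => exact ih.trans (hmono (n + k))
  have hseq_add : ∀ n k, EqOn (seq (n + k)).1 (seq n).1 (ball (c n) (R n)) := by
    intro n k
    induction k with
    | zero => exact fun z _ => rfl
    | succ k ih =>
      intro z hz
      have := hseq_succ (n + k) (hball_mono n k hz)
      rw [← ih hz]
      exact this
  -- the glued function
  let g : ℂ → ℂ := fun z =>
    if h : ∃ n, z ∈ ball (c n) (R n) then (seq (Nat.find h)).1 z else 0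
  have hg_eq : ∀ n, EqOn g (seq n).1 (ball (c n) (R n)) := by
    intro n z hz
    have h : ∃ n, z ∈ ball (c n) (R n) := ⟨n, hz⟩
    have hle : Nat.find h ≤ n := Nat.find_min' h hz
    have hfind : z ∈ ball (c (Nat.find h)) (R (Nat.find h)) := Nat.find_spec h
    show (if h : ∃ n, z ∈ ball (c n) (R n) then (seq (Nat.find h)).1 z else 0) = _
    rw [dif_pos h]
    obtain ⟨k, hk⟩ := Nat.exists_eq_add_of_le hle
    have := hseq_add (Nat.find h) k hfind
    rw [← hk] at this
    exact this.symm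
  refine ⟨g, ?_, ?_⟩
  · intro z hz
    obtain ⟨n, hn⟩ := hcover z hz
    have : g =ᶠ[𝓝 z] (seq n).1 := by
      filter_upwards [isOpen_ball.mem_nhds hn] with y hy using hg_eq n hy
    exact (meromorphicNFAt_congr this).2 ((seq n).2.1 hn)
  · refine eventually_codiscreteWithin_of_forall_nhdsNE hUopen fun z hz => ?_
    obtain ⟨n, hn⟩ := hcover z hz
    have h1 := eventually_nhdsNE_of_codiscreteWithin isOpen_ball (seq n).2.2 hn
    have h2 : ∀ᶠ y in 𝓝[≠] z, y ∈ ball (c n) (R n) :=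
      mem_nhdsWithin_of_mem_nhds (isOpen_ball.mem_nhds hn)
    filter_upwards [h1, h2] with y hy1 hy2
    rw [hg_eq n hy2]
    exact hy1

end Glue

end Fermat.Agent.H61
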