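/-
helper61 (P-ES, analytic side): m-th roots of meromorphic functions, part 4:
the upper half plane `{z | 0 < im z}` is exhausted by balls; existence and uniqueness of
meromorphic `m`-th roots there.
-/
import Fermat.Agent.H61.ESRoot3

set_option autoImplicit false

open Complex Metric Set Filter Topology

namespace Fermat.Agent.H61

/-- The open upper half plane as a subset of `ℂ`. -/
def uhpSet : Set ℂ := {z : ℂ | 0 < z.im}

theorem isOpen_uhpSet : IsOpen uhpSet := isOpen_lt continuous_const Complex.continuous_im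

theorem convex_uhpSet : Convex ℝ uhpSet := by
  intro x hx y hy a b ha hb hab
  simp only [uhpSet, Set.mem_ofPred_eq] at hx hy ⊢
  simp only [Complex.add_im, Complex.smul_im, smul_eq_mul]
  rcases ha.eq_or_lt with rfl | ha'
  · simp at hab
    subst hab
    simpa using hy
  · have := mul_pos ha' hx
    have := mul_nonneg hb hy.le
    linarith

theorem isPreconnected_uhpSet : IsPreconnected uhpSet := convex_uhpSet.isPreconnected

theorem uhpSet_nonempty : uhpSet.Nonempty := ⟨Complex.I, by simp [uhpSet]⟩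

/-- centres of the exhausting balls -/
noncomputable def uhpCentre (n : ℕ) : ℂ := ((n : ℝ) + 2 : ℝ) * Complex.I

/-- radii of the exhausting balls -/
noncomputable def uhpRadius (n : ℕ) : ℝ := ((n : ℝ) + 2) - 1 / ((n : ℝ) + 2)

theorem uhpRadius_pos (n : ℕ) : 0 < uhpRadius n := by
  unfold uhpRadius
  have h2 : (1 : ℝ) ≤ (n : ℝ) + 2 := by positivity |> fun h : (0 : ℝ) ≤ (n : ℝ) => by linarith
  have h3 : 1 / ((n : ℝ) + 2) ≤ 1 := by
    rw [div_le_one (by linarith)]
    exact h2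
  have : (0 : ℝ) ≤ (n : ℝ) := by positivity
  linarith

theorem uhp_closedBall_subset (n : ℕ) : closedBall (uhpCentre n) (uhpRadius n) ⊆ uhpSet := by
  intro w hw
  rw [mem_closedBall, dist_eq_norm] at hw
  have h1 : |(w - uhpCentre n).im| ≤ ‖w - uhpCentre n‖ := Complex.abs_im_le_norm _
  have h2 : (w - uhpCentre n).im = w.im - ((n : ℝ) + 2) := by
    simp [uhpCentre]
  rw [h2] at h1
  have h3 := (abs_le.1 (h1.trans hw)).1
  have hpos : (0 : ℝ) < 1 / ((n : ℝ) + 2) := by positivity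
  simp only [uhpSet, Set.mem_ofPred_eq]
  unfold uhpRadius at h3
  linarith

theorem uhp_ball_mono (n : ℕ) :
    ball (uhpCentre n) (uhpRadius n) ⊆ ball (uhpCentre (n + 1)) (uhpRadius (n + 1)) := by
  apply ball_subset_ball'
  have hd : dist (uhpCentre n) (uhpCentre (n + 1)) = 1 := by
    rw [dist_eq_norm]
    have : uhpCentre n - uhpCentre (n + 1) = -Complex.I := by
      simp only [uhpCentre]
      push_cast
      ring
    rw [this]
    simp
  rw [hd]
  unfold uhpRadius
  have hn : (0 : ℝ) ≤ (n : ℝ) := by positivity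
  have h1 : 1 / ((((n + 1 : ℕ) : ℝ)) + 2) ≤ 1 / ((n : ℝ) + 2) := by
    apply one_div_le_one_div_of_le (by linarith)
    push_cast
    linarith
  push_cast at h1 ⊢
  linarith

theorem uhp_cover (z : ℂ) (hz : z ∈ uhpSet) : ∃ n, z ∈ ball (uhpCentre n) (uhpRadius n) := by
  simp only [uhpSet, Set.mem_ofPred_eq] at hz
  obtain ⟨n, hn⟩ := exists_nat_gt ((z.re ^ 2 + z.im ^ 2 + 2) / (2 * z.im))
  refine ⟨n, ?_⟩
  rw [mem_ball, dist_eq_norm]
  have hN : (0 : ℝ) < (n : ℝ) + 2 := by positivity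
  have hkey : z.re ^ 2 + z.im ^ 2 + 2 < 2 * z.im * ((n : ℝ) + 2) := by
    have h1 : (z.re ^ 2 + z.im ^ 2 + 2) / (2 * z.im) < (n : ℝ) + 2 := by linarith
    rw [div_lt_iff₀ (by linarith)] at h1
    linarith
  have hsq : ‖z - uhpCentre n‖ ^ 2 = z.re ^ 2 + (z.im - ((n : ℝ) + 2)) ^ 2 := by
    rw [Complex.sq_norm, Complex.normSq_apply]
    simp [uhpCentre]
    ring
  have hRpos := uhpRadius_pos n
  have hR2 : uhpRadius n ^ 2 = ((n : ℝ) + 2) ^ 2 - 2 + (1 / ((n : ℝ) + 2)) ^ 2 := by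
    unfold uhpRadius
    field_simp
    ring
  have hlt : ‖z - uhpCentre n‖ ^ 2 < uhpRadius n ^ 2 := by
    rw [hsq, hR2]
    have : (0 : ℝ) ≤ (1 / ((n : ℝ) + 2)) ^ 2 := by positivity
    nlinarith
  exact lt_of_pow_lt_pow_left₀ 2 hRpos.le hlt

/-- **EXISTENCE of `m`-th roots on the upper half plane.** A meromorphic function on the upper half
plane, nowhere locally zero, all of whose orders are divisible by `m`, is (off a discrete set) the
`m`-th power of a meromorphic function in normal form. -/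
theorem exists_root_uhp {m : ℕ} (hm : m ≠ 0) {f : ℂ → ℂ} (hf : MeromorphicOn f uhpSet)
    (hfin : ∀ z ∈ uhpSet, meromorphicOrderAt f z ≠ ⊤)
    (hdiv : ∀ z ∈ uhpSet, (m : ℤ) ∣ (meromorphicOrderAt f z).untop₀) :
    ∃ g : ℂ → ℂ, MeromorphicNFOn g uhpSet ∧ ∀ᶠ y in codiscreteWithin uhpSet, g y ^ m = f y :=
  exists_root_of_ball_exhaustion uhpCentre uhpRadius hm uhpRadius_pos uhp_closedBall_subset
    uhp_ball_mono uhp_cover hf hfin hdiv

/-- **UNIQUENESS of `m`-th roots on the upper half plane** up to an `m`-th root of unity. -/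
theorem root_unique_uhp {m : ℕ} (hm : m ≠ 0) {g₁ g₂ : ℂ → ℂ}
    (h₁ : MeromorphicNFOn g₁ uhpSet) (h₂ : MeromorphicNFOn g₂ uhpSet)
    (hfin : ∀ z ∈ uhpSet, meromorphicOrderAt g₂ z ≠ ⊤)
    (h : ∀ᶠ y in codiscreteWithin uhpSet, g₁ y ^ m = g₂ y ^ m) :
    ∃ ζ : ℂ, ζ ^ m = 1 ∧ ∀ z ∈ uhpSet, g₁ z = ζ * g₂ z :=
  exists_root_of_unity_of_pow_eq hm isOpen_uhpSet isPreconnected_uhpSet uhpSet_nonempty h₁ h₂ hfin h

end Fermat.Agent.H61
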