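/-
P-GENUS / GEN-15 (helper61), part 1: the cusp transform `cuspOf N h t = h (invQParam N t)` of a
function on the upper half plane, and its behaviour under translations.
-/
import Mathlib
import Fermat.Agent.H61.GenAn2

set_option autoImplicit false

noncomputable section

open UpperHalfPlane Filter Topology Function Complex
open scoped MatrixGroups Manifold Real

namespace Fermat.Agent.H61

/-- The cusp transform of a function on `ℍ` in the local parameter `t = exp (2πiz/N)`. -/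
def cuspOf (N : ℕ) (h : ℍ → ℂ) : ℂ → ℂ :=
  fun t => h (ofComplex (Periodic.invQParam (N : ℝ) t))

lemma cuspOf_add (N : ℕ) (f g : ℍ → ℂ) : cuspOf N (f + g) = cuspOf N f + cuspOf N g := rfl

lemma cuspOf_mul (N : ℕ) (f g : ℍ → ℂ) : cuspOf N (f * g) = cuspOf N f * cuspOf N g := rfl

lemma cuspOf_const (N : ℕ) (c : ℂ) : cuspOf N (fun _ => c) = fun _ => c := rfl

lemma cuspOf_eq_cuspFunction (N : ℕ) (h : ℍ → ℂ) {t : ℂ} (ht : t ≠ 0) :
    cuspOf N h t = Periodic.cuspFunction (N : ℝ) (h ∘ ofComplex) t := by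
  rw [Periodic.cuspFunction_eq_of_nonzero _ _ ht]
  rfl

lemma cuspOf_eventuallyEq_cuspFunction (N : ℕ) (h : ℍ → ℂ) :
    cuspOf N h =ᶠ[𝓝[≠] (0 : ℂ)] Periodic.cuspFunction (N : ℝ) (h ∘ ofComplex) := by
  filter_upwards [self_mem_nhdsWithin] with t ht
  exact cuspOf_eq_cuspFunction N h ht

/-- `ζ_N = exp (2πi/N)`. -/
def zetaN (N : ℕ) : ℂ := Periodic.qParam (N : ℝ) 1

lemma zetaN_ne_zero (N : ℕ) : zetaN N ≠ 0 := Periodic.qParam_ne_zero _

lemma qParam_add_int (N : ℕ) (w : ℂ) (a : ℤ) :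
    Periodic.qParam (N : ℝ) (w + a) = zetaN N ^ a * Periodic.qParam (N : ℝ) w := by
  unfold zetaN Periodic.qParam
  rw [← Complex.exp_int_mul, ← Complex.exp_add]
  congr 1
  ring

lemma isPrimitiveRoot_zetaN (N : ℕ) [NeZero N] : IsPrimitiveRoot (zetaN N) N := by
  have hN : (N : ℂ) ≠ 0 := Nat.cast_ne_zero.mpr (NeZero.ne N)
  have := Complex.isPrimitiveRoot_exp N (NeZero.ne N)
  convert this using 1
  unfold zetaN Periodic.qParam
  congr 1
  push_cast
  ring

/-- Periodic functions on `ℂ`: `f (invQParam (ζ^a t)) = f (invQParam t + a)`. -/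
lemma periodic_invQParam_zpow_mul (N : ℕ) [NeZero N] {f : ℂ → ℂ} (hf : Periodic f (N : ℝ))
    (a : ℤ) {t : ℂ} (ht : t ≠ 0) :
    f (Periodic.invQParam (N : ℝ) (zetaN N ^ a * t)) = f (Periodic.invQParam (N : ℝ) t + a) := by
  have hN : (N : ℝ) ≠ 0 := Nat.cast_ne_zero.mpr (NeZero.ne N)
  set w := Periodic.invQParam (N : ℝ) t with hw
  have hqw : Periodic.qParam (N : ℝ) w = t := Periodic.qParam_right_inv hN ht
  have h1 : zetaN N ^ a * t = Periodic.qParam (N : ℝ) (w + a) := by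
    rw [qParam_add_int, hqw]
  obtain ⟨m, hm⟩ := Periodic.qParam_left_inv_mod_period hN (w + a)
  rw [h1, hm]
  have := hf.int_mul m (w + a)
  exact_mod_cast this

lemma im_invQParam_pos (N : ℕ) [NeZero N] {t : ℂ} (ht : t ≠ 0) (ht1 : ‖t‖ < 1) :
    0 < (Periodic.invQParam (N : ℝ) t).im := by
  rw [Periodic.im_invQParam]
  have hN : (0 : ℝ) < N := Nat.cast_pos.mpr (Nat.pos_of_ne_zero (NeZero.ne N))
  have hlog : Real.log ‖t‖ < 0 := Real.log_neg (norm_pos_iff.mpr ht) ht1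
  have h1 : -(N : ℝ) / (2 * π) < 0 := by
    apply div_neg_of_neg_of_pos (neg_lt_zero.mpr hN)
    positivity
  exact mul_pos_of_neg_of_neg h1 hlog

lemma periodic_comp_ofComplex (N : ℕ) (F : ℍ → ℂ)
    (hper : ∀ z : ℍ, F (ModularGroup.T ^ N • z) = F z) :
    Periodic (F ∘ ofComplex) (N : ℝ) := by
  intro w
  by_cases hw : 0 < w.im
  · have hw' : 0 < (w + ((N : ℝ) : ℂ)).im := by simpa using hw
    simp only [comp_apply, ofComplex_apply_of_im_pos hw', ofComplex_apply_of_im_pos hw]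
    rw [← hper ⟨w, hw⟩]
    congr 1
    apply UpperHalfPlane.ext
    have := ModularGroup.coe_T_zpow_smul_eq (z := (⟨w, hw⟩ : ℍ)) (n := (N : ℤ))
    rw [zpow_natCast] at this
    rw [this]
    show w + ((N : ℝ) : ℂ) = w + ((N : ℤ) : ℂ)
    push_cast
    ring
  · have hw' : ¬ 0 < (w + ((N : ℝ) : ℂ)).im := by simpa using hw
    simp only [comp_apply]
    rw [ofComplex_apply_of_im_nonpos (not_lt.mp hw'), ofComplex_apply_of_im_nonpos (not_lt.mp hw)]

/-- Translation by `a` on `ℍ` corresponds to multiplication by `ζ^a` at the cusp. -/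
lemma cuspOf_T_zpow (N : ℕ) [NeZero N] (h : ℍ → ℂ)
    (hper : ∀ z : ℍ, h (ModularGroup.T ^ N • z) = h z) (a : ℤ)
    {t : ℂ} (ht : t ≠ 0) (ht1 : ‖t‖ < 1) :
    cuspOf N (fun z => h (ModularGroup.T ^ a • z)) t = cuspOf N h (zetaN N ^ a * t) := by
  have hw := im_invQParam_pos N ht ht1
  set w := Periodic.invQParam (N : ℝ) t with hwdef
  have hRHS : cuspOf N h (zetaN N ^ a * t) = (h ∘ ofComplex) (w + a) :=
    periodic_invQParam_zpow_mul N (periodic_comp_ofComplex N h hper) a ht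
  rw [hRHS]
  show h (ModularGroup.T ^ a • ofComplex w) = h (ofComplex (w + a))
  congr 1
  apply UpperHalfPlane.ext
  have hw' : 0 < (w + (a : ℂ)).im := by simpa using hw
  rw [ModularGroup.coe_T_zpow_smul_eq, ofComplex_apply_of_im_pos hw,
    ofComplex_apply_of_im_pos hw']

/-- A periodic function is recovered from its cusp transform. -/
lemma cuspOf_qParam (N : ℕ) [NeZero N] (h : ℍ → ℂ)
    (hper : ∀ z : ℍ, h (ModularGroup.T ^ N • z) = h z) (z : ℍ) :
    cuspOf N h (Periodic.qParam (N : ℝ) (z : ℂ)) = h z := by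
  have hN : (N : ℝ) ≠ 0 := Nat.cast_ne_zero.mpr (NeZero.ne N)
  rw [cuspOf_eq_cuspFunction N h (Periodic.qParam_ne_zero _),
    Periodic.eq_cuspFunction hN (periodic_comp_ofComplex N h hper)]
  simp

/-- Identity theorem at the cusp. -/
lemma eq_of_cuspOf_eventuallyEq (N : ℕ) [NeZero N] {h₁ h₂ : ℍ → ℂ}
    (hm₁ : MDiff h₁) (hm₂ : MDiff h₂)
    (hp₁ : ∀ z : ℍ, h₁ (ModularGroup.T ^ N • z) = h₁ z)
    (hp₂ : ∀ z : ℍ, h₂ (ModularGroup.T ^ N • z) = h₂ z)
    (h : cuspOf N h₁ =ᶠ[𝓝[≠] (0 : ℂ)] cuspOf N h₂) : h₁ = h₂ := by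
  have hN : (0 : ℝ) < N := Nat.cast_pos.mpr (Nat.pos_of_ne_zero (NeZero.ne N))
  have h1 := (Periodic.qParam_tendsto hN).eventually h
  rw [Filter.eventually_comap] at h1
  obtain ⟨Y, hY⟩ := Filter.eventually_atTop.mp h1
  -- a point high up
  let z₀ : ℍ := ⟨Complex.I * (max Y 0 + 1), by simp; positivity⟩
  refine eq_of_eventuallyEq_nhdsNE hm₁ hm₂ z₀ ?_
  have hopen : IsOpen {w : ℂ | max Y 0 < w.im} :=
    isOpen_lt continuous_const Complex.continuous_im
  have hz₀ : (z₀ : ℂ) ∈ {w : ℂ | max Y 0 < w.im} := by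
    show max Y 0 < (Complex.I * ((max Y 0 : ℝ) + 1 : ℂ)).im
    simp
  have hnhds : {w : ℂ | max Y 0 < w.im} ∈ 𝓝[≠] (z₀ : ℂ) :=
    nhdsWithin_le_nhds (hopen.mem_nhds hz₀)
  filter_upwards [hnhds] with w hw
  have hw0 : 0 < w.im := lt_of_le_of_lt (le_max_right _ _) hw
  have hwY : Y ≤ w.im := le_of_lt (lt_of_le_of_lt (le_max_left _ _) hw)
  have key := hY w.im hwY w rfl
  have e1 := cuspOf_qParam N h₁ hp₁ ⟨w, hw0⟩
  have e2 := cuspOf_qParam N h₂ hp₂ ⟨w, hw0⟩
  simp only [comp_apply, ofComplex_apply_of_im_pos hw0]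
  rw [← e1, ← e2]
  exact key

lemma meromorphicOrderAt_comp_const_mul {F : ℂ → ℂ} {c : ℂ} (hc : c ≠ 0) :
    meromorphicOrderAt (fun t => F (c * t)) 0 = meromorphicOrderAt F 0 := by
  have hg : AnalyticAt ℂ (fun t : ℂ => c * t) 0 := by fun_prop
  have hd : deriv (fun t : ℂ => c * t) 0 ≠ 0 := by
    rw [deriv_const_mul_field]; simpa using hc
  have := meromorphicOrderAt_comp_of_deriv_ne_zero (f := F) hg hd
  simpa [Function.comp_def] using this

lemma zpow_eq_one_of_comp_const_mul {F : ℂ → ℂ} {c : ℂ} (hc : c ≠ 0) {n : ℤ}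
    (hF : MeromorphicAt F 0) (hn : meromorphicOrderAt F 0 = n)
    (hinv : ∀ᶠ t in 𝓝[≠] (0 : ℂ), F (c * t) = F t) : c ^ n = 1 := by
  have hg : AnalyticAt ℂ (fun t : ℂ => c * t) 0 := by fun_prop
  have hd : deriv (fun t : ℂ => c * t) 0 = c := by
    rw [deriv_const_mul_field]; simp
  have := deriv_zpow_eq_one_of_comp_eq (F := F) (φ := fun t => c * t) (z₀ := 0) hF hn hg
    (by simp) (by rw [hd]; exact hc) hinv
  rwa [hd] at this

end Fermat.Agent.H61

end
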