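/-
P-GENUS / GEN-15 (helper61), part 2: the order of `j` at the cusp in the parameter `t = q^(1/N)`.
-/
import Mathlib
import Fermat.Agent.H23.BlueprintAn
import Fermat.Agent.H82.CuspMero
import Fermat.Agent.H82.Separation
import Fermat.Agent.H61.GenCusp1

set_option autoImplicit false

noncomputable section

open UpperHalfPlane Filter Topology Function Complex
open scoped MatrixGroups Manifold Real

namespace Fermat.Agent.H61

/-- A function with `c₁ ≤ ‖F t‖ * ‖t‖ ^ N ≤ c₂` near `0`, meromorphic at `0`, has order `-N`. -/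
lemma order_eq_neg_of_two_sided_bound {F : ℂ → ℂ} (N : ℕ) (hF : MeromorphicAt F 0)
    {c₁ c₂ : ℝ} (hc₁ : 0 < c₁)
    (hb : ∀ᶠ t in 𝓝[≠] (0 : ℂ), c₁ ≤ ‖F t‖ * ‖t‖ ^ N ∧ ‖F t‖ * ‖t‖ ^ N ≤ c₂) :
    meromorphicOrderAt F 0 = ((-(N : ℤ) : ℤ) : WithTop ℤ) := by
  set G : ℂ → ℂ := fun t => t ^ N * F t with hG
  have hid : MeromorphicAt (fun t : ℂ => t ^ N) 0 := by fun_prop
  have hGm : MeromorphicAt G 0 := hid.mul hF
  have hnorm : ∀ t, ‖G t‖ = ‖F t‖ * ‖t‖ ^ N := by
    intro t; simp [hG, mul_comm]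
  -- order of G is 0
  have hG0 : meromorphicOrderAt G 0 = 0 := by
    rcases lt_trichotomy (meromorphicOrderAt G 0) 0 with hlt | heq | hgt
    · exfalso
      have ht := tendsto_cobounded_of_meromorphicOrderAt_neg hlt
      rw [← tendsto_norm_atTop_iff_cobounded] at ht
      have h1 := ht.eventually (eventually_gt_atTop c₂)
      obtain ⟨t, ht1, ht2⟩ := (h1.and hb).exists
      rw [hnorm] at ht1
      linarith [ht2.2]
    · exact heq
    · exfalso
      have ht := tendsto_zero_of_meromorphicOrderAt_pos hgt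
      have ht' : Tendsto (fun t => ‖G t‖) (𝓝[≠] (0 : ℂ)) (𝓝 0) := by
        simpa using ht.norm
      have h1 := ht'.eventually (eventually_lt_nhds hc₁)
      obtain ⟨t, ht1, ht2⟩ := (h1.and hb).exists
      rw [hnorm] at ht1
      linarith [ht2.1]
  have hmul : meromorphicOrderAt G 0
      = meromorphicOrderAt (fun t : ℂ => t ^ N) 0 + meromorphicOrderAt F 0 :=
    meromorphicOrderAt_mul hid hF
  have hpow : meromorphicOrderAt (fun t : ℂ => t ^ N) 0 = ((N : ℤ) : WithTop ℤ) := by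
    have := meromorphicOrderAt_pow_id_sub_const (𝕜 := ℂ) (x := 0) (n := N)
    have e : ((fun t : ℂ => t - 0) ^ N) = fun t : ℂ => t ^ N := by
      funext t; simp
    rw [e] at this
    exact_mod_cast this
  rw [hG0, hpow] at hmul
  -- solve for the order of F
  cases h : meromorphicOrderAt F 0 with
  | top => rw [h] at hmul; simp at hmul
  | coe m =>
    rw [h] at hmul
    have : (0 : ℤ) = (N : ℤ) + m := by exact_mod_cast hmul
    have hm : m = -(N : ℤ) := by linarith
    rw [hm]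

/-- Meromorphy of the cusp transform from periodicity and exponential growth. -/
lemma meromorphicAt_cuspOf (N : ℕ) [NeZero N] (F : ℍ → ℂ) (hF : MDiff F)
    (hper : ∀ z : ℍ, F (ModularGroup.T ^ N • z) = F z)
    (M : ℕ) (C Y : ℝ) (hgrow : ∀ z : ℍ, Y ≤ z.im → ‖F z‖ ≤ C * Real.exp (2 * π * M * z.im)) :
    MeromorphicAt (cuspOf N F) 0 :=
  (Fermat.Agent.H82.cm_meromorphicAt_cuspFunction_of_growth N F hF hper M C Y hgrow).congr
    (cuspOf_eventuallyEq_cuspFunction N F).symm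

open Fermat.Agent.H23 in
/-- The cusp transform of `j` in the parameter `t = q^(1/N)` has a pole of order exactly `N`. -/
theorem order_cuspOf_jfun (N : ℕ) [NeZero N] (hmd : MDiff jfun)
    (hinv : ∀ (γ : SL(2, ℤ)) (z : ℍ), jfun (γ • z) = jfun z) :
    MeromorphicAt (cuspOf N jfun) 0 ∧
      meromorphicOrderAt (cuspOf N jfun) 0 = ((-(N : ℤ) : ℤ) : WithTop ℤ) := by
  obtain ⟨Y, hY⟩ := Fermat.Agent.H82.sep_exists_bound_jfun
  have hN : (0 : ℝ) < N := Nat.cast_pos.mpr (Nat.pos_of_ne_zero (NeZero.ne N))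
  have hmer : MeromorphicAt (cuspOf N jfun) 0 := by
    refine meromorphicAt_cuspOf N jfun hmd (fun z => hinv _ z) 1 7 Y ?_
    intro z hz
    have := (hY z hz).2
    simpa using this
  refine ⟨hmer, ?_⟩
  refine order_eq_neg_of_two_sided_bound N hmer (c₁ := 1 / 12) (c₂ := 7) (by norm_num) ?_
  have h1 : ∀ᶠ t in 𝓝[≠] (0 : ℂ), Y ≤ (Periodic.invQParam (N : ℝ) t).im := by
    have := (Periodic.invQParam_tendsto hN)
    rw [tendsto_comap_iff] at this
    exact this.eventually (eventually_ge_atTop Y)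
  have h2 : ∀ᶠ t in 𝓝[≠] (0 : ℂ), t ≠ 0 := self_mem_nhdsWithin
  have h3 : ∀ᶠ t in 𝓝[≠] (0 : ℂ), ‖t‖ < 1 := by
    have : ∀ᶠ t in 𝓝 (0 : ℂ), ‖t‖ < 1 := by
      have hc : ContinuousAt (fun t : ℂ => ‖t‖) 0 := continuous_norm.continuousAt
      have := hc.eventually (gt_mem_nhds (show ‖(0 : ℂ)‖ < 1 by simp))
      exact this
    exact this.filter_mono nhdsWithin_le_nhds
  filter_upwards [h1, h2, h3] with t ht1 ht2 ht3
  have hw := im_invQParam_pos N ht2 ht3
  set w := Periodic.invQParam (N : ℝ) t with hwdef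
  have hF : cuspOf N jfun t = jfun ⟨w, hw⟩ := by
    show jfun (ofComplex w) = _
    rw [ofComplex_apply_of_im_pos hw]
  have hb := hY ⟨w, hw⟩ ht1
  have hq : Periodic.qParam (N : ℝ) w = t := Periodic.qParam_right_inv hN.ne' ht2
  have hnt : ‖t‖ ^ N = Real.exp (-(2 * π * w.im)) := by
    rw [← hq, Periodic.norm_qParam, ← Real.exp_nat_mul]
    congr 1
    field_simp
  have him : (⟨w, hw⟩ : ℍ).im = w.im := rfl
  rw [him] at hb
  rw [hF, hnt]
  have hpos : 0 < Real.exp (-(2 * π * w.im)) := Real.exp_pos _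
  have hone : Real.exp (2 * π * w.im) * Real.exp (-(2 * π * w.im)) = 1 := by
    rw [← Real.exp_add]; simp
  constructor
  · calc (1 : ℝ) / 12 = (1 / 12 * Real.exp (2 * π * w.im)) * Real.exp (-(2 * π * w.im)) := by
          rw [mul_assoc, hone, mul_one]
      _ ≤ ‖jfun ⟨w, hw⟩‖ * Real.exp (-(2 * π * w.im)) :=
          mul_le_mul_of_nonneg_right hb.1 hpos.le
  · calc ‖jfun ⟨w, hw⟩‖ * Real.exp (-(2 * π * w.im))
        ≤ (7 * Real.exp (2 * π * w.im)) * Real.exp (-(2 * π * w.im)) :=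
          mul_le_mul_of_nonneg_right hb.2 hpos.le
      _ = 7 := by rw [mul_assoc, hone, mul_one]

end Fermat.Agent.H61

end
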