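/-
P-GENUS / GEN-15 (helper61), part 3: the analytic datum at the cusp.
-/
import Mathlib
import Fermat.Agent.H23.BlueprintAn
import Fermat.Agent.H82.CuspGrowth
import Fermat.Agent.H61.GenAn5
import Fermat.Agent.H61.GenCusp2

set_option autoImplicit false

noncomputable section

open UpperHalfPlane Filter Topology
open scoped MatrixGroups Manifold

namespace Fermat.Agent.H61

open Fermat.Agent.H23

section cuspgerm

variable {N : ℕ} (G : MerGermField (0 : ℂ))

lemma germ_zero_gen {x : ℂ} (G : MerGermField x) : G.germ (fun _ => (0 : ℂ)) = 0 := by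
  have h0 : MeromorphicAt (fun _ : ℂ => (0 : ℂ)) x := MeromorphicAt.const 0 _
  have h := G.germ_add _ _ h0 h0
  have e : ((fun _ : ℂ => (0 : ℂ)) + fun _ : ℂ => (0 : ℂ)) = fun _ => (0 : ℂ) := by
    funext z; simp
  rw [e] at h
  exact left_eq_add.mp h

/-- The germ homomorphism at the cusp attached to a ring of functions on `ℍ` whose cusp
transforms are meromorphic at `0`. -/
def cuspGermHom {R : Type*} [CommRing R] (Θ' : R →+* (ℍ → ℂ))
    (hmer : ∀ r, MeromorphicAt (cuspOf N (Θ' r)) 0) : R →+* G.M where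
  toFun r := G.germ (cuspOf N (Θ' r))
  map_one' := by
    have : cuspOf N (Θ' 1) = fun _ => (1 : ℂ) := by rw [map_one]; rfl
    rw [this]; exact G.germ_one
  map_mul' r s := by
    have : cuspOf N (Θ' (r * s)) = cuspOf N (Θ' r) * cuspOf N (Θ' s) := by
      rw [map_mul]; rfl
    rw [this]
    exact G.germ_mul _ _ (hmer r) (hmer s)
  map_zero' := by
    have : cuspOf N (Θ' 0) = fun _ => (0 : ℂ) := by rw [map_zero]; rfl
    rw [this]; exact germ_zero_gen G
  map_add' r s := by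
    have : cuspOf N (Θ' (r + s)) = cuspOf N (Θ' r) + cuspOf N (Θ' s) := by
      rw [map_add]; rfl
    rw [this]
    exact G.germ_add _ _ (hmer r) (hmer s)

lemma cuspGermHom_apply {R : Type*} [CommRing R] (Θ' : R →+* (ℍ → ℂ))
    (hmer : ∀ r, MeromorphicAt (cuspOf N (Θ' r)) 0) (r : R) :
    cuspGermHom G Θ' hmer r = G.germ (cuspOf N (Θ' r)) := rfl

lemma cuspGermHom_eq_iff [NeZero N] {R : Type*} [CommRing R]
    (Θ' : R →+* (ℍ → ℂ)) (hmer : ∀ r, MeromorphicAt (cuspOf N (Θ' r)) 0)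
    (hmd : ∀ r, MDiff (Θ' r)) (hper : ∀ r (z : ℍ), Θ' r (ModularGroup.T ^ N • z) = Θ' r z)
    (Θ'' : R →+* (ℍ → ℂ)) (hmer' : ∀ r, MeromorphicAt (cuspOf N (Θ'' r)) 0)
    (hmd' : ∀ r, MDiff (Θ'' r)) (hper' : ∀ r (z : ℍ), Θ'' r (ModularGroup.T ^ N • z) = Θ'' r z)
    (r s : R) :
    cuspGermHom G Θ' hmer r = cuspGermHom G Θ'' hmer' s ↔ Θ' r = Θ'' s := by
  constructor
  · intro h
    rw [cuspGermHom_apply, cuspGermHom_apply, G.germ_eq_iff _ _ (hmer r) (hmer' s)] at h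
    exact eq_of_cuspOf_eventuallyEq N (hmd r) (hmd' s) (hper r) (hper' s) h
  · intro h
    rw [cuspGermHom_apply, cuspGermHom_apply, h]

lemma cuspGermHom_injective [NeZero N] {R : Type*} [CommRing R]
    (Θ' : R →+* (ℍ → ℂ)) (hmer : ∀ r, MeromorphicAt (cuspOf N (Θ' r)) 0)
    (hmd : ∀ r, MDiff (Θ' r)) (hper : ∀ r (z : ℍ), Θ' r (ModularGroup.T ^ N • z) = Θ' r z)
    (hinj : Function.Injective Θ') : Function.Injective (cuspGermHom G Θ' hmer) := by
  intro r s h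
  exact hinj ((cuspGermHom_eq_iff G Θ' hmer hmd hper Θ' hmer hmd hper r s).mp h)

lemma val_cuspGermHom {R : Type*} [CommRing R] (Θ' : R →+* (ℍ → ℂ))
    (hmer : ∀ r, MeromorphicAt (cuspOf N (Θ' r)) 0) (r : R) :
    G.val (cuspGermHom G Θ' hmer r) = meromorphicOrderAt (cuspOf N (Θ' r)) 0 := by
  rw [cuspGermHom_apply]
  exact G.val_germ _ (hmer r)

end cuspgerm

lemma int_div_gcd_dvd_of_dvd_mul {e k : ℕ} {n : ℤ} (he : 0 < e) (h : (e : ℤ) ∣ (k : ℤ) * n) :
    ((e / Nat.gcd e k : ℕ) : ℤ) ∣ n := by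
  rw [Int.natCast_dvd] at h ⊢
  rw [Int.natAbs_mul, Int.natAbs_natCast] at h
  exact div_gcd_dvd_of_dvd_mul he h

end Fermat.Agent.H61

end
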