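/-
P-GENUS / GEN-15 (helper61), part 4: the analytic datum at the cusp (main construction).
-/
import Mathlib
import Fermat.Agent.H23.BlueprintAn
import Fermat.Agent.H82.CuspGrowth
import Fermat.Agent.H61.GenCusp3

set_option autoImplicit false

noncomputable section

open UpperHalfPlane Filter Topology
open scoped MatrixGroups Manifold

namespace Fermat.Agent.H61

open Fermat.Agent.H23

section main

variable {N : ℕ} [NeZero N]

local notation "Kbar" => AlgebraicClosure ℚ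
set_option quotPrecheck false in
local notation "FN" => ↥(ModularCurve.modularFunctionFieldBar N)

theorem analyticDatum_cusp_of
    (ι : Kbar →+* ℂ) (Θ : ↥(Rsub N) →+* (ℍ → ℂ))
    (hΘinj : Function.Injective Θ) (hΘmd : ∀ r, MDiff (Θ r))
    (hΘc : ∀ c : Kbar, Θ (algebraMap Kbar ↥(Rsub N) c) = fun _ => ι c)
    (hΘJ : ∀ (d : ℕ) (_ : NeZero d) (hd : d ∣ N) (h : jBarD N d hd ∈ Rsub N),
      Θ ⟨jBarD N d hd, h⟩ = fun z => jfun (scaleH d z))
    (hfrac : ∀ f : FN, ∃ r s : ↥(Rsub N), s ≠ 0 ∧ f * (s : FN) = r)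
    (hjinv : ∀ (γ : SL(2, ℤ)) (z : ℍ), jfun (γ • z) = jfun z)
    (hjmd : MDiff jfun)
    (hsep1 : ∀ γ : SL(2, ℤ), (∀ z : ℍ, jfun (scaleH N (γ • z)) = jfun (scaleH N z)) →
      γ ∈ CongruenceSubgroup.Gamma0 N)
    (hsep2 : ∀ (d : ℕ) (_ : NeZero d), d ∣ N → ∀ γ ∈ CongruenceSubgroup.Gamma0 N, ∀ z : ℍ,
      jfun (scaleH d (γ • z)) = jfun (scaleH d z))
    (G : MerGermField (0 : ℂ)) :
    Nonempty (AnalyticDatum N (jBar N)⁻¹ ModularGroup.T N) := by
  classical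
  have hFR : IsFractionRing ↥(Rsub N) FN := isFractionRing_Rsub hfrac
  have hinvΘ := theta_invariant ι Θ hΘc hΘJ hsep2
  have hNpos : 0 < N := Nat.pos_of_ne_zero (NeZero.ne N)
  -- the pulled-back homs
  let Θγ : SL(2, ℤ) → (↥(Rsub N) →+* (ℍ → ℂ)) := fun γ => (pullHom γ).comp Θ
  have hΘγ : ∀ γ r z, Θγ γ r z = Θ r (γ⁻¹ • z) := fun γ r z => rfl
  have hΘγmd : ∀ γ r, MDiff (Θγ γ r) := fun γ r => mdiff_pullHom γ (hΘmd r)
  have hΘγinj : ∀ γ, Function.Injective (Θγ γ) := fun γ => (pullHom_injective γ).comp hΘinj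
  have hper : ∀ γ r (z : ℍ), Θγ γ r (ModularGroup.T ^ N • z) = Θγ γ r z := by
    intro γ r z
    exact Fermat.Agent.H82.cg_theta_periodic N ι Θ hΘc hΘJ r γ⁻¹ z
  have hmer : ∀ γ r, MeromorphicAt (cuspOf N (Θγ γ r)) 0 := by
    intro γ r
    obtain ⟨M, C, Y, -, hgrow⟩ := Fermat.Agent.H82.cg_theta_growth N ι Θ hΘc hΘJ r γ⁻¹
    exact meromorphicAt_cuspOf N (Θγ γ r) (hΘγmd γ r) (hper γ r) M C Y hgrow
  let sR : SL(2, ℤ) → (↥(Rsub N) →+* G.M) := fun γ => cuspGermHom G (Θγ γ) (hmer γ)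
  have hsR_eq_iff : ∀ γ γ' (r s : ↥(Rsub N)), sR γ r = sR γ' s ↔ Θγ γ r = Θγ γ' s :=
    fun γ γ' r s => cuspGermHom_eq_iff G (Θγ γ) (hmer γ) (hΘγmd γ) (hper γ)
      (Θγ γ') (hmer γ') (hΘγmd γ') (hper γ') r s
  have hsRinj : ∀ γ, Function.Injective (sR γ) :=
    fun γ => cuspGermHom_injective G _ _ (hΘγmd γ) (hper γ) (hΘγinj γ)
  let σ : SL(2, ℤ) → (FN →+* G.M) := fun γ => IsFractionRing.lift (hsRinj γ)
  have hσR : ∀ γ (r : ↥(Rsub N)), σ γ (algebraMap ↥(Rsub N) FN r) = sR γ r :=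
    fun γ r => IsFractionRing.lift_algebraMap (hsRinj γ) r
  have hσinj : ∀ γ, Function.Injective (σ γ) := fun γ => (σ γ).injective
  -- constants
  have hconst : ∀ γ (c : Kbar), σ γ (algebraMap Kbar FN c) = G.germ (fun _ => ι c) := by
    intro γ c
    rw [IsScalarTower.algebraMap_apply Kbar ↥(Rsub N) FN c, hσR]
    show G.germ (cuspOf N (Θγ γ (algebraMap Kbar ↥(Rsub N) c))) = _
    congr 1
    funext z
    show Θ (algebraMap Kbar ↥(Rsub N) c) _ = _
    rw [hΘc]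
  -- the element `j`
  let jR : ↥(Rsub N) := ⟨jBarD N 1 (one_dvd N), jBarD_mem 1 (one_dvd N)⟩
  have hjR : algebraMap ↥(Rsub N) FN jR = jBar N := by
    rw [jBar_eq_jBarD_one]
    rfl
  have hΘj : ∀ γ, Θγ γ jR = jfun := by
    intro γ
    funext z
    rw [hΘγ]
    show Θ ⟨jBarD N 1 (one_dvd N), jBarD_mem 1 (one_dvd N)⟩ _ = _
    rw [hΘJ 1 inferInstance (one_dvd N)]
    simp only [scaleH_one, hjinv]
  have hσj : ∀ γ, σ γ (jBar N) = G.germ (cuspOf N jfun) := by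
    intro γ
    rw [← hjR, hσR]
    show G.germ (cuspOf N (Θγ γ jR)) = _
    rw [hΘj]
  obtain ⟨hjmer, hjord⟩ := order_cuspOf_jfun N hjmd hjinv
  have hvalj : ∀ γ, G.val (σ γ (jBar N)) = ((-(N : ℤ) : ℤ) : WithTop ℤ) := by
    intro γ
    rw [hσj, G.val_germ _ hjmer, hjord]
  -- valuations of elements of `Rsub N`
  have hvalR : ∀ γ (r : ↥(Rsub N)), G.val (sR γ r)
      = meromorphicOrderAt (cuspOf N (Θγ γ r)) 0 :=
    fun γ r => val_cuspGermHom G _ _ r
  -- fractions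
  have hfracσ : ∀ (γ : SL(2, ℤ)) (f : FN) (r s : ↥(Rsub N)), f * (s : FN) = r →
      σ γ f * sR γ s = sR γ r := by
    intro γ f r s h
    rw [← hσR, ← hσR, ← map_mul]
    exact congrArg _ h
  -- `σ_eq_iff`
  have hσ_eq_iff : ∀ γ γ' : SL(2, ℤ),
      σ γ = σ γ' ↔ γ⁻¹ * γ' ∈ CongruenceSubgroup.Gamma0 N := by
    intro γ γ'
    constructor
    · intro h
      apply hsep1
      intro z
      let JN : ↥(Rsub N) := ⟨jBarD N N dvd_rfl, jBarD_mem N dvd_rfl⟩
      have h1 : sR γ JN = sR γ' JN := by rw [← hσR, ← hσR, h]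
      have h2 : Θγ γ JN = Θγ γ' JN := (hsR_eq_iff γ γ' JN JN).mp h1
      have h3 := congrFun h2 (γ' • z)
      rw [hΘγ, hΘγ, hΘJ N inferInstance dvd_rfl] at h3
      simpa [mul_smul] using h3
    · intro h
      apply IsFractionRing.ringHom_ext (A := ↥(Rsub N))
      intro r
      rw [hσR, hσR]
      apply (hsR_eq_iff γ γ' r r).mpr
      funext z
      rw [hΘγ, hΘγ]
      have e : γ'⁻¹ • z = (γ⁻¹ * γ')⁻¹ • (γ⁻¹ • z) := by
        rw [← mul_smul]; congr 1; group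
      rw [e, hinvΘ r _ (inv_mem h)]
  -- `val_g`
  have hζ : zetaN N ≠ 0 := zetaN_ne_zero N
  have hball : ∀ᶠ t in 𝓝[≠] (0 : ℂ), t ≠ 0 ∧ ‖t‖ < 1 := by
    have h2 : ∀ᶠ t in 𝓝[≠] (0 : ℂ), t ≠ 0 := self_mem_nhdsWithin
    have h3 : ∀ᶠ t in 𝓝[≠] (0 : ℂ), ‖t‖ < 1 := by
      have hc : ContinuousAt (fun t : ℂ => ‖t‖) 0 := continuous_norm.continuousAt
      have := hc.eventually (gt_mem_nhds (show ‖(0 : ℂ)‖ < 1 by simp))
      exact this.filter_mono nhdsWithin_le_nhds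
    exact h2.and h3
  have hval_g_R : ∀ γ (r : ↥(Rsub N)),
      G.val (sR (ModularGroup.T * γ) r) = G.val (sR γ r) := by
    intro γ r
    rw [hvalR, hvalR]
    have e : cuspOf N (Θγ (ModularGroup.T * γ) r)
        = cuspOf N (fun z => (Θγ γ r) (ModularGroup.T ^ (-1 : ℤ) • z)) := by
      funext t
      show Θ r ((ModularGroup.T * γ)⁻¹ • _) = Θ r (γ⁻¹ • (ModularGroup.T ^ (-1 : ℤ) • _))
      rw [mul_inv_rev, mul_smul, zpow_neg_one]
    have e2 : cuspOf N (fun z => (Θγ γ r) (ModularGroup.T ^ (-1 : ℤ) • z))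
        =ᶠ[𝓝[≠] (0 : ℂ)] fun t => cuspOf N (Θγ γ r) (zetaN N ^ (-1 : ℤ) * t) := by
      filter_upwards [hball] with t ht
      exact cuspOf_T_zpow N (Θγ γ r) (hper γ r) (-1) ht.1 ht.2
    rw [e, meromorphicOrderAt_congr e2,
      meromorphicOrderAt_comp_const_mul (zpow_ne_zero _ hζ)]
  have hs_ne : ∀ γ (s : ↥(Rsub N)), s ≠ 0 → G.val (sR γ s) ≠ ⊤ := by
    intro γ s hs
    rw [Ne, AddValuation.top_iff]
    intro h0
    exact hs (hsRinj γ (h0.trans (map_zero _).symm))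
  have hval_g : ∀ γ (f : FN), G.val (σ (ModularGroup.T * γ) f) = G.val (σ γ f) := by
    intro γ f
    obtain ⟨r, s, hs, h⟩ := hfrac f
    have v1 := congrArg G.val (hfracσ (ModularGroup.T * γ) f r s h)
    have v2 := congrArg G.val (hfracσ γ f r s h)
    rw [AddValuation.map_mul] at v1 v2
    rw [hval_g_R, hval_g_R] at v1
    exact WithTop.add_right_cancel (hs_ne γ s hs) (v1.trans v2.symm)
  -- `val_dvd`
  have hval_dvd : ∀ (γ : SL(2, ℤ)) (k : ℕ),
      γ⁻¹ * ModularGroup.T ^ k * γ ∈ CongruenceSubgroup.Gamma0 N →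
      ∀ f : FN, f ≠ 0 → ∃ m : ℤ,
        G.val (σ γ f) = ((((N / Nat.gcd N k : ℕ) : ℤ) * m : ℤ) : WithTop ℤ) := by
    intro γ k hk f hf
    have hR : ∀ r : ↥(Rsub N), r ≠ 0 → ∃ n : ℤ,
        G.val (sR γ r) = ((n : ℤ) : WithTop ℤ) ∧ ((N / Nat.gcd N k : ℕ) : ℤ) ∣ n := by
      intro r hr
      obtain ⟨n, hn⟩ := WithTop.ne_top_iff_exists.mp (hs_ne γ r hr)
      refine ⟨n, hn.symm, ?_⟩
      have hord : meromorphicOrderAt (cuspOf N (Θγ γ r)) 0 = ((n : ℤ) : WithTop ℤ) := by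
        rw [← hvalR, ← hn]
      have hinvk : ∀ z, Θγ γ r ((ModularGroup.T ^ k) • z) = Θγ γ r z := by
        intro z
        rw [hΘγ, hΘγ]
        have e : γ⁻¹ • (ModularGroup.T ^ k) • z
            = (γ⁻¹ * ModularGroup.T ^ k * γ) • (γ⁻¹ • z) := by
          simp [mul_smul]
        rw [e, hinvΘ r _ hk]
      have hinvt : ∀ᶠ t in 𝓝[≠] (0 : ℂ),
          cuspOf N (Θγ γ r) (zetaN N ^ (k : ℤ) * t) = cuspOf N (Θγ γ r) t := by
        filter_upwards [hball] with t ht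
        rw [← cuspOf_T_zpow N (Θγ γ r) (hper γ r) (k : ℤ) ht.1 ht.2]
        show (Θγ γ r) (ModularGroup.T ^ (k : ℤ) • _) = (Θγ γ r) _
        rw [zpow_natCast, hinvk]
      have key := zpow_eq_one_of_comp_const_mul (zpow_ne_zero _ hζ) (hmer γ r) hord hinvt
      rw [← zpow_mul] at key
      have hdvd : ((N : ℕ) : ℤ) ∣ (k : ℤ) * n :=
        ((isPrimitiveRoot_zetaN N).zpow_eq_one_iff_dvd _).mp key
      exact int_div_gcd_dvd_of_dvd_mul hNpos hdvd
    obtain ⟨r, s, hs, h⟩ := hfrac f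
    have hr : r ≠ 0 := by
      rintro rfl
      have hs' : (s : FN) ≠ 0 := fun h0 => hs (Subtype.ext h0)
      exact (mul_ne_zero hf hs') (by rw [h]; rfl)
    obtain ⟨nr, hnr, dr⟩ := hR r hr
    obtain ⟨ns, hns, ds⟩ := hR s hs
    have v := congrArg G.val (hfracσ γ f r s h)
    rw [AddValuation.map_mul, hnr, hns] at v
    have hfne : G.val (σ γ f) ≠ ⊤ := by
      rw [Ne, AddValuation.top_iff]
      intro h0
      exact hf (hσinj γ (h0.trans (map_zero _).symm))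
    obtain ⟨m, hm⟩ := WithTop.ne_top_iff_exists.mp hfne
    rw [← hm] at v ⊢
    have v' : m + ns = nr := by exact_mod_cast v
    obtain ⟨qr, hqr⟩ := dr
    obtain ⟨qs, hqs⟩ := ds
    refine ⟨qr - qs, ?_⟩
    congr 1
    have : m = nr - ns := by linarith
    rw [this, hqr, hqs]
    ring
  exact ⟨{
    M := G.M
    val := G.val
    der := G.der
    der_add := G.der_add
    der_mul := G.der_mul
    val_der := G.val_der
    σ := σ
    val_const := by
      intro γ c hc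
      rw [hconst, G.val_germ _ (MeromorphicAt.const _ _), meromorphicOrderAt_const]
      have : ι c ≠ 0 := (map_ne_zero ι).mpr hc
      simp [this]
    der_const := by
      intro γ c
      rw [hconst, G.der_germ _ (MeromorphicAt.const _ _)]
      have : deriv (fun _ : ℂ => ι c) = fun _ => 0 := by
        funext z; simp
      rw [this]
      exact germ_zero_gen G
    σ_const := by
      intro γ γ' c
      rw [hconst, hconst]
    σ_eq_iff := hσ_eq_iff
    σ_y := by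
      intro γ γ'
      rw [map_inv₀, map_inv₀, hσj, hσj]
    val_y := by
      intro γ
      have hne : σ γ (jBar N) ≠ 0 := by
        intro h0
        have := hvalj γ
        rw [h0, AddValuation.map_zero] at this
        exact WithTop.top_ne_coe this
      have h1 : σ γ (jBar N)⁻¹ * σ γ (jBar N) = 1 := by
        rw [map_inv₀]; exact inv_mul_cancel₀ hne
      have v := congrArg G.val h1
      rw [AddValuation.map_mul, AddValuation.map_one, hvalj] at v
      have hfne : G.val (σ γ (jBar N)⁻¹) ≠ ⊤ := by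
        intro h0
        rw [h0] at v
        simp at v
      obtain ⟨m, hm⟩ := WithTop.ne_top_iff_exists.mp hfne
      rw [← hm] at v ⊢
      have v' : m + -(N : ℤ) = 0 := by exact_mod_cast v
      congr 1
      linarith
    val_g := hval_g
    val_dvd := hval_dvd }⟩

end main

end Fermat.Agent.H61

end
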