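/-
P-GENUS / GEN-15 (helper61), part 5: the analytic datum at the cusp from the interface
statements, and the full analytic package `AnalyticStatement N`.
-/
import Mathlib
import Fermat.Agent.H23.BlueprintAn
import Fermat.Agent.H61.GenAn6
import Fermat.Agent.H61.GenCusp4

set_option autoImplicit false

noncomputable section

open UpperHalfPlane Filter Topology
open scoped MatrixGroups Manifold

namespace Fermat.Agent.H61

open Fermat.Agent.H23

theorem analyticDatum_cusp (N : ℕ) [NeZero N]
    (hG : MerGermStatement) (hC : CoreStatement N) (hJ : JFactsStatement)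
    (hS : SeparationStatement N) :
    Nonempty (AnalyticDatum N (jBar N)⁻¹ ModularGroup.T N) := by
  obtain ⟨ι, Θ, hΘinj, hΘmd, hΘc, hΘJ, hfrac⟩ := hC
  obtain ⟨hjinv, hjmd, -, -, -, -⟩ := hJ
  obtain ⟨hsep1, hsep2⟩ := hS
  obtain ⟨G⟩ := hG (0 : ℂ)
  exact analyticDatum_cusp_of ι Θ hΘinj hΘmd hΘc hΘJ hfrac hjinv hjmd hsep1 hsep2 G

/-- The full analytic package of the S24 blueprint. -/
theorem analyticStatement (N : ℕ) [NeZero N]
    (hG : MerGermStatement) (hC : CoreStatement N) (hJ : JFactsStatement)
    (hS : SeparationStatement N) : AnalyticStatement N := by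
  obtain ⟨h1, h2, h3⟩ := analytic_finite_points N hG hC hJ hS
  exact ⟨h1, h2, h3, analyticDatum_cusp N hG hC hJ hS⟩

end Fermat.Agent.H61

end
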