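/-
P-PET / PET-M1b (helper61): translates of the standard fundamental domain by `g ≠ ±1` meet the
fundamental domain in a null set (for the hyperbolic measure on `ℍ`).  Mathlib only.
-/
import Mathlib
import Fermat.Agent.H98.Pet.Interfaces

set_option autoImplicit false

open MeasureTheory UpperHalfPlane

open scoped MatrixGroups Pointwise Modular

namespace Fermat.Agent.H61

/-- A vertical line in `ℂ` is Lebesgue-null. -/
lemma pet_volume_re_eq (c : ℝ) : (volume : Measure ℂ) {z : ℂ | z.re = c} = 0 := by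
  have hconv : Convex ℝ {z : ℂ | z.re ≤ c} := convex_halfSpace_re_le c
  have h := hconv.addHaar_frontier (volume : Measure ℂ)
  rwa [Complex.frontier_setOfPred_re_le] at h

/-- The image in `ℂ` of the boundary of the standard fundamental domain is Lebesgue-null. -/
lemma pet_volume_coe_boundary :
    (volume : Measure ℂ) ((fun z : ℍ => (z : ℂ)) '' (ModularGroup.fd \ ModularGroup.fdo)) = 0 := by
  have hsub : (fun z : ℍ => (z : ℂ)) '' (ModularGroup.fd \ ModularGroup.fdo)
      ⊆ Metric.sphere (0 : ℂ) 1 ∪ ({z : ℂ | z.re = 1 / 2} ∪ {z : ℂ | z.re = -(1 / 2)}) := by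
    rintro _ ⟨z, ⟨hz, hz'⟩, rfl⟩
    obtain ⟨h1, h2⟩ := hz
    by_cases hn : 1 < Complex.normSq (z : ℂ)
    · have h3 : ¬ |z.re| < (1 : ℝ) / 2 := fun h => hz' ⟨hn, h⟩
      have h4 : |z.re| = 1 / 2 := le_antisymm h2 (not_lt.mp h3)
      right
      rcases abs_eq (by norm_num : (0 : ℝ) ≤ 1 / 2) |>.mp h4 with h | h
      · left; exact h
      · right; exact h
    · left
      have h5 : Complex.normSq (z : ℂ) = 1 := le_antisymm (not_lt.mp hn) h1
      rw [mem_sphere_zero_iff_norm]
      have h6 : ‖(z : ℂ)‖ ^ 2 = 1 := by rw [← Complex.normSq_eq_norm_sq]; exact h5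
      have h7 : (0 : ℝ) ≤ ‖(z : ℂ)‖ := norm_nonneg _
      nlinarith
  refine measure_mono_null hsub ?_
  rw [measure_union_null_iff, measure_union_null_iff]
  exact ⟨Measure.addHaar_sphere _ _ _, pet_volume_re_eq _, pet_volume_re_eq _⟩

/-- The boundary of the standard fundamental domain has hyperbolic volume zero. -/
theorem pet_volume_fd_diff_fdo :
    (volume : Measure ℍ) (ModularGroup.fd \ ModularGroup.fdo) = 0 := by
  rw [UpperHalfPlane.volume_eq_lintegral]
  exact setLIntegral_measure_zero _ _ pet_volume_coe_boundary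

/-- **PET-M1b.** -/
theorem fdAEDisjoint : Fermat.Agent.H98.Pet.FdAEDisjointStatement := by
  intro g hg1 hg2
  have hsub : (fun z : ℍ => g • z) '' ModularGroup.fd ∩ ModularGroup.fd
      ⊆ (fun z : ℍ => g • z) '' (ModularGroup.fd \ ModularGroup.fdo) := by
    rintro _ ⟨⟨z, hz, rfl⟩, hw⟩
    refine ⟨z, ⟨hz, fun hzo => ?_⟩, rfl⟩
    rcases ModularGroup.eq_one_or_neg_one_of_mem_fdo_mem_fd hzo hw with h | h
    · exact hg1 h
    · exact hg2 h
  refine measure_mono_null hsub ?_
  have e : (fun z : ℍ => g • z) '' (ModularGroup.fd \ ModularGroup.fdo)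
      = ((g : GL (Fin 2) ℝ)) • (ModularGroup.fd \ ModularGroup.fdo) := by
    rw [← Set.image_smul]
    rfl
  rw [e, measure_smul]
  exact pet_volume_fd_diff_fdo

end Fermat.Agent.H61
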